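import Fermat.Agent.DeligneSerre.Curve.Model1Gen
import Fermat.Agent.DeligneSerre.SeriesG
import Fermat.Agent.DeligneSerre.RootInjective
import Fermat.Agent.Arith.RootsOfUnity
import Mathlib.FieldTheory.Separable

/-!
# The Gauss model of the field of `±Γ₁(M)` and the kernel of reduction on its Kummer group

Every function is a constant times one with primitive expansion, and a function with divisor
divisible by `m` whose expansion reduces to one is an `m`-th power.
-/

set_option autoImplicit false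
set_option linter.unusedSectionVars false
set_option maxHeartbeats 1000000
set_option synthInstance.maxHeartbeats 400000

noncomputable section

open Polynomial IsLocalRing ModularCurve AlgebraicCurve
open scoped IntermediateField

namespace Fermat.Agent.DeligneSerre.Curve

open Fermat.Agent.EichlerShimura Fermat.Agent.DeligneSerre.SeriesG
open Fermat.Agent.RedTorsion (serInt serRed serRed_coeffMap evalA)
open Fermat.Agent.JacTorsion (divGrp powGrp)

local notation "Qb" => AlgebraicClosure ℚ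

local instance isAlgClosed_kappa (A : ValuationSubring Qb) : IsAlgClosed (ResidueField A) :=
  Arith.residueField_isAlgClosed A

variable {M : ℕ} [NeZero M] [GoodLevel M] {A : ValuationSubring Qb}
  (hMA : (M : ResidueField A) ≠ 0)

theorem val_toRingHom_apply {K L : Type*} [Field K] [Field L] [Algebra K L]
    (S : IntermediateField K L) (x : S) : S.val.toRingHom x = (x : L) := rfl

/-- The reduced field of `Γ₀(M)`. -/
abbrev F0k (M : ℕ) [NeZero M] (A : ValuationSubring Qb) :
    IntermediateField (ResidueField A) (LaurentSeries (ResidueField A)) :=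
  modularFunctionFieldFullC (ResidueField A) M

/-- Shortcut: the search through `LaurentSeries` is slow. -/
local instance instAlgebraResLaurent (A : ValuationSubring Qb) :
    Algebra (ResidueField A) (LaurentSeries (ResidueField A)) := inferInstance

/-- Shortcut: the search through `LaurentSeries` is slow. -/
local instance instAlgebraResF0k (M : ℕ) [NeZero M] (A : ValuationSubring Qb) :
    Algebra (ResidueField A) (F0k M A) := inferInstance

/-- The model of level `Γ₀(M)`. -/
def model0 : Model A (Fin (Nat.card (ModFun.Coset M))) (F0Q M) (F0k M A) :=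
  RedTorsion.model (F := F0Q M) rfl hMA

theorem compat0 :
    Compat (model0 hMA) (F0Q M).val.toRingHom (F0k M A).val.toRingHom where
  hse P := by
    show ((RedTorsion.ratLine _ _ : F0Q M) : LaurentSeries Qb) = _
    rw [RedTorsion.ratLine_algebraMap, RedTorsion.coe_aeval_jF]
  hsb P := by
    show ((RedTorsion.ratLine _ _ : F0k M A) : LaurentSeries (ResidueField A)) = _
    rw [RedTorsion.ratLine_algebraMap, RedTorsion.coe_aeval_jF]
  hbasis i := by
    have hi := RedTorsion.basisInt_mem (F := F0Q M) (A := A) rfl hMA i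
    refine ⟨serInt_le_G hi, ?_⟩
    refine (gRed_serInt ⟨_, hi⟩ _).trans ?_
    exact (RedTorsion.coe_redF rfl hMA ⟨_, hi⟩).symm.trans
      (congrArg Subtype.val (RedTorsion.redF_basisInt rfl hMA i))

section Units

include hMA

theorem inv_natCast_mem : (M : Qb)⁻¹ ∈ A := by
  by_contra h
  have h0 : residue A ⟨(M : Qb), natCast_mem A M⟩ = 0 :=
    (residue_eq_zero_iff_inv (Nat.cast_ne_zero.2 (NeZero.ne M))).2 h
  exact hMA ((map_natCast (residue A) M).symm.trans h0)

/-- The translates with integral coefficients. -/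
def uI (a : (ZMod M)ˣ) : LaurentSeries A := uSer A ⟨_, inv_natCast_mem hMA⟩ a

theorem coeffMap_subtype_uI (a : (ZMod M)ˣ) : coeffMap A.subtype (uI hMA a) = uK Qb a :=
  coeffMap_uSer _ _ _

theorem coeffMap_residue_uI (a : (ZMod M)ˣ) :
    coeffMap (residue A) (uI hMA a) = uK (ResidueField A) a := by
  rw [uI, coeffMap_uSer, uK]
  congr 1
  refine eq_inv_of_mul_eq_one_left ?_
  rw [← map_natCast (residue A) M, ← map_mul, ← map_one (residue A)]
  exact congrArg (residue A) (Subtype.ext (inv_mul_cancel₀ (Nat.cast_ne_zero.2 (NeZero.ne M))))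

theorem uK_neg_res (a : (ZMod M)ˣ) : uK (ResidueField A) (-a) = uK (ResidueField A) a := by
  rw [← coeffMap_residue_uI hMA, ← coeffMap_residue_uI hMA]
  refine congrArg _ (HahnSeries.ext (funext fun n => Subtype.ext ?_))
  have h := congrArg (fun s : LaurentSeries Qb => s.coeff n)
    ((coeffMap_subtype_uI hMA (-a)).trans ((uK_neg Qb a).trans (coeffMap_subtype_uI hMA a).symm))
  simpa using h

end Units

/-- The reduced product over the diamond classes. -/
def diaPolyBar (M : ℕ) [NeZero M] [GoodLevel M] (A : ValuationSubring Qb) :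
    (LaurentSeries (ResidueField A))[X] :=
  ∏ q : Idx M, (X - C (uK (ResidueField A) q.out))

include hMA in
theorem coeff_diaPolyQb_G (n : ℕ) :
    ∃ h : (diaPolyQb M).coeff n ∈ G A, gRed A ⟨_, h⟩ = (diaPolyBar M A).coeff n := by
  have e1 : (∏ q : Idx M, (X - C (uI hMA q.out))).map (coeffMap A.subtype) = diaPolyQb M := by
    simp only [diaPolyQb_eq, Polynomial.map_prod, Polynomial.map_sub, map_X, map_C,
      coeffMap_subtype_uI]
  have e2 : (∏ q : Idx M, (X - C (uI hMA q.out))).map (coeffMap (residue A)) =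
      diaPolyBar M A := by
    simp only [diaPolyBar, Polynomial.map_prod, Polynomial.map_sub, map_X, map_C,
      coeffMap_residue_uI]
  rw [← e1, ← e2, coeff_map, coeff_map]
  exact ⟨serInt_le_G ⟨_, rfl⟩, (gRed_serInt ⟨_, ⟨_, rfl⟩⟩ _).trans (serRed_coeffMap _ _)⟩

/-- The series of an element of the lattice of level `Γ₀(M)`. -/
def eS : (model0 hMA).S →+* LaurentSeries Qb :=
  (F0Q M).val.toRingHom.comp (model0 hMA).S.subtype

theorem exists_Phi : ∃ Φ : (model0 hMA).S[X], Φ.Monic ∧ Φ.natDegree = Fintype.card (Idx M) ∧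
    Φ.map (eS hMA) = diaPolyQb M := by
  have hl : diaPolyQb M ∈ Polynomial.lifts (eS hMA) := (lifts_iff_coeff_lifts _).2 fun n =>
    ⟨⟨⟨_, coeff_diaPolyQb_mem n⟩, (compat0 hMA).mem_S (F0k M A).val.toRingHom.injective
      (coeff_diaPolyQb_G hMA n).1⟩, rfl⟩
  obtain ⟨Q, hQ, hd, hm⟩ := Polynomial.lifts_and_natDegree_eq_and_monic hl monic_diaPolyQb
  exact ⟨Q, hm, by rw [hd, natDegree_diaPolyQb], hQ⟩

/-- The integral polynomial of the generator. -/
def Phi : (model0 hMA).S[X] := (exists_Phi hMA).choose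

theorem monic_Phi : (Phi hMA).Monic := (exists_Phi hMA).choose_spec.1

theorem natDegree_Phi : (Phi hMA).natDegree = Fintype.card (Idx M) :=
  (exists_Phi hMA).choose_spec.2.1

theorem map_Phi : (Phi hMA).map (eS hMA) = diaPolyQb M := (exists_Phi hMA).choose_spec.2.2

/-- The reduced polynomial. -/
abbrev PhiBar : (F0k M A)[X] := (Phi hMA).map (model0 hMA).red

theorem map_PhiBar : (PhiBar hMA).map (F0k M A).val.toRingHom = diaPolyBar M A := by
  ext1 n
  obtain ⟨h, hr⟩ := coeff_diaPolyQb_G hMA n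
  obtain ⟨h', hr'⟩ := (compat0 hMA).series ((Phi hMA).coeff n)
  have e : (F0Q M).val.toRingHom ((Phi hMA).coeff n : F0Q M) = (diaPolyQb M).coeff n := by
    rw [← map_Phi hMA, coeff_map]; rfl
  rw [coeff_map, coeff_map, ← hr', ← hr]
  exact congrArg (gRed A) (Subtype.ext e)

theorem separable_PhiBar : (PhiBar hMA).Separable := by
  rw [← separable_map (F0k M A).val.toRingHom, map_PhiBar, diaPolyBar,
    separable_prod_X_sub_C_iff]
  exact fun q q' h => (idx_eq_of_eq_or_neg (uK_eq_iff hMA h)).symm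

theorem evU_Phi : evU (model0 hMA) (uGen M) (Phi hMA) = 0 := by
  refine Subtype.ext ?_
  have h : ((evU (model0 hMA) (uGen M) (Phi hMA) : F1Q M) : LaurentSeries Qb) =
      (Phi hMA).eval₂ (eS hMA) (uK Qb (1 : (ZMod M)ˣ)) := by
    refine (hom_eval₂ (Phi hMA) _ (F1Q M).val.toRingHom (uGen M)).trans ?_
    rfl
  rw [h, ← eval_map, map_Phi, diaPolyQb, eval_diaPolyQ]
  rfl

include hMA in
theorem sepF0k : Algebra.IsSeparable (RatFunc (Kappa A)) (F0k M A) :=
  haveI := RedTorsion.isSeparable_jF (K := ResidueField A) (N := M) (F := F0k M A) rfl hMA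
  RedTorsion.isSeparable_ratAlgebra (RedTorsion.transcendental_jF
    (K := ResidueField A) (N := M) (F := F0k M A) rfl)

/-- The model of level `±Γ₁(M)`. -/
def model1 : Model A (Fin (Nat.card (ModFun.Coset M)) × Fin (Fintype.card (Idx M))) (F1Q M)
    (AdjoinRoot (PhiBar hMA)) :=
  haveI := sepF0k hMA
  adjoinModel (M := model0 hMA) (Φ := Phi hMA) (U := uGen M) (b1 := basis1 M) basis1_apply
    (monic_Phi hMA) (natDegree_Phi hMA) (evU_Phi hMA) (separable_PhiBar hMA)

theorem eval_PhiBar : (PhiBar hMA).eval₂ (F0k M A).val.toRingHom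
    (uK (ResidueField A) (1 : (ZMod M)ˣ)) = 0 := by
  rw [← eval_map, map_PhiBar, diaPolyBar, eval_prod]
  refine Finset.prod_eq_zero (Finset.mem_univ (QuotientGroup.mk 1 : Idx M)) ?_
  rw [eval_sub, eval_X, eval_C, sub_eq_zero]
  rcases out_mk_eq (1 : (ZMod M)ˣ) with h | h <;> rw [h]
  exact (uK_neg_res hMA 1).symm

/-- The series of the reduced field of level `±Γ₁(M)`. -/
def sb1 : AdjoinRoot (PhiBar hMA) →+* LaurentSeries (ResidueField A) :=
  AdjoinRoot.lift (F0k M A).val.toRingHom _ (eval_PhiBar hMA)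

theorem coe_model1_b (i : Fin (Nat.card (ModFun.Coset M))) (j : Fin (Fintype.card (Idx M))) :
    (((model1 hMA).b (i, j) : F1Q M) : LaurentSeries Qb) =
      (((model0 hMA).b i : F0Q M) : LaurentSeries Qb) * uK Qb (1 : (ZMod M)ˣ) ^ (j : ℕ) := by
  have h : (model1 hMA).b (i, j) =
      algebraMap (F0Q M) (F1Q M) ((model0 hMA).b i) * uGen M ^ (j : ℕ) := by
    rw [← Algebra.smul_def, ← basis1_apply]
    exact Module.Basis.smulTower_apply _ _ _
  rw [h, IntermediateField.coe_mul, algebraMap_F01, coe_inclF0, IntermediateField.coe_pow]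
  rfl

theorem sb1_model1_bb (i : Fin (Nat.card (ModFun.Coset M))) (j : Fin (Fintype.card (Idx M))) :
    sb1 hMA ((model1 hMA).bb (i, j)) = (F0k M A).val.toRingHom ((model0 hMA).bb i) *
      uK (ResidueField A) (1 : (ZMod M)ˣ) ^ (j : ℕ) := by
  have h : (model1 hMA).bb (i, j) = evB (model0 hMA) (Phi hMA)
      (monomial (j : ℕ) ⟨(model0 hMA).b i, (model0 hMA).basis_mem i⟩) :=
    monomial_evB (monic_Phi hMA) (natDegree_Phi hMA) i j
  rw [h, evB, RingHom.comp_apply, coe_mapRingHom, map_monomial, sb1, AdjoinRoot.lift_mk,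
    eval₂_monomial, Model.red_basis]

include hMA in
theorem uK_one_G : ∃ h : uK Qb (1 : (ZMod M)ˣ) ∈ G A,
    gRed A ⟨_, h⟩ = uK (ResidueField A) (1 : (ZMod M)ˣ) := by
  have hu : uK Qb (1 : (ZMod M)ˣ) ∈ serInt A := ⟨_, coeffMap_subtype_uI hMA 1⟩
  refine ⟨serInt_le_G hu, (gRed_serInt ⟨_, hu⟩ _).trans ?_⟩
  rw [← coeffMap_residue_uI hMA]
  exact (congrArg (serRed A) (Subtype.ext (coeffMap_subtype_uI hMA 1).symm)).trans
    (serRed_coeffMap _ ⟨_, rfl⟩)

theorem algebraMap_line_bar (P : (Kappa A)[X]) :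
    sb1 hMA (algebraMap (RatFunc (Kappa A)) (AdjoinRoot (PhiBar hMA))
      (algebraMap (Kappa A)[X] (RatFunc (Kappa A)) P)) =
      aeval (jqModC (Kappa A)) P := by
  rw [IsScalarTower.algebraMap_apply (RatFunc (Kappa A)) (F0k M A)
      (AdjoinRoot (PhiBar hMA)), AdjoinRoot.algebraMap_eq, sb1, AdjoinRoot.lift_of]
  exact (compat0 hMA).hsb P

theorem basis1_G (p : Fin (Nat.card (ModFun.Coset M)) × Fin (Fintype.card (Idx M))) :
    ∃ h : (F1Q M).val.toRingHom ((model1 hMA).b p) ∈ G A,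
      gRed A ⟨_, h⟩ = sb1 hMA ((model1 hMA).bb p) := by
  obtain ⟨i, j⟩ := p
  obtain ⟨hb, hbr⟩ := (compat0 hMA).hbasis i
  obtain ⟨hu, hur⟩ := uK_one_G hMA
  have hm : (((model1 hMA).b (i, j) : F1Q M) : LaurentSeries Qb) ∈ G A := by
    rw [coe_model1_b]; exact mul_mem hb (pow_mem hu _)
  refine ⟨hm, ?_⟩
  rw [sb1_model1_bb, ← hbr, ← hur, ← map_pow, ← map_mul]
  exact congrArg (gRed A) (Subtype.ext (coe_model1_b hMA i j))

theorem compat1 : Compat (model1 hMA) (F1Q M).val.toRingHom (sb1 hMA) := by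
  refine ⟨?_, ?_, ?_⟩
  · intro P
    rw [val_toRingHom_apply, coe_algebraMap_line1]
  · exact algebraMap_line_bar hMA
  · exact basis1_G hMA

theorem card_Idx_pos : 0 < Fintype.card (Idx M) := Fintype.card_pos

include hMA in
theorem finite_F1Q : FiniteDimensional (RatFunc Qb) (F1Q M) :=
  Module.Finite.of_basis (model1 hMA).b

theorem ord_jBase1_data :
    (∀ P : Place Qb (F1Q M), 0 < P.ord (jBase1 M Qb) → P.ord (jBase1 M Qb) ∣ 3) ∧
    (∀ P : Place Qb (F1Q M), 0 < P.ord (jBase1 M Qb - algebraMap Qb (F1Q M) 1728) →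
      P.ord (jBase1 M Qb - algebraMap Qb (F1Q M) 1728) ∣ 2) ∧
    ∀ a : Qb, a ≠ 0 → a ≠ 1728 → ∀ P : Place Qb (F1Q M),
      0 < P.ord (jBase1 M Qb - algebraMap Qb (F1Q M) a) →
        P.ord (jBase1 M Qb - algebraMap Qb (F1Q M) a) ∣ 1 := by
  refine ⟨fun P hP => ?_, fun P hP => ?_, fun a h0 h1 P hP => ?_⟩
  · have e : jBase1 M Qb - algebraMap Qb (F1Q M) 0 = jBase1 M Qb := by rw [map_zero, sub_zero]
    have h := ord_jBase1_sub_dvd P 0 (by rw [e]; exact hP)
    rw [e, if_pos rfl] at h
    exact_mod_cast h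
  · have h := ord_jBase1_sub_dvd P 1728 hP
    rw [if_neg (by norm_num : (1728 : Qb) ≠ 0), if_pos rfl] at h
    exact_mod_cast h
  · have h := ord_jBase1_sub_dvd P a hP
    rw [if_neg h0, if_neg h1] at h
    exact_mod_cast h

theorem irreducible_PhiBar : Irreducible (PhiBar hMA) := by
  have hdeg : (PhiBar hMA).natDegree = Fintype.card (Idx M) := by
    rw [(monic_Phi hMA).natDegree_map, natDegree_Phi]
  have hpos := card_Idx_pos (M := M)
  have hnu : ¬ IsUnit (PhiBar hMA) := fun h => by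
    rw [natDegree_eq_zero_of_isUnit h] at hdeg; omega
  have : Nontrivial (AdjoinRoot (PhiBar hMA)) := AdjoinRoot.nontrivial _ fun h => by
    have := natDegree_eq_of_degree_eq_some (n := 0) (by exact_mod_cast h); omega
  have := finite_F1Q hMA
  classical
  obtain ⟨d0, d1, dg⟩ := ord_jBase1_data (M := M)
  refine ⟨hnu, fun a b hab => ?_⟩
  by_contra hcon
  rw [not_or] at hcon
  obtain ⟨u, v, huv⟩ := (hab ▸ separable_PhiBar hMA : (a * b).Separable).isCoprime
  have hidem : IsIdempotentElem (AdjoinRoot.mk (PhiBar hMA) (u * a)) := by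
    show _ * _ = _
    rw [← map_mul, AdjoinRoot.mk_eq_mk]
    exact ⟨-(u * v), by linear_combination (u * a) * huv + (u * v) * hab⟩
  rcases idem_eq_zero_or_one_of_ord (model1 hMA) (isArchVal_algebraicClosure A)
    (algebraMap_X_eq (M := M)) (NeZero.ne M) d0 d1 dg (fun P hP => ord_jBase1_dvd P hP)
    hidem with h | h
  · rw [AdjoinRoot.mk_eq_zero, hab] at h
    refine hcon.2 (isUnit_of_dvd_one ?_)
    rw [← huv]
    have ha : a ≠ 0 := fun h0 => ((monic_Phi hMA).map _).ne_zero (by rw [show Polynomial.map (model0 hMA).red (Phi hMA) = a * b from hab, h0, zero_mul])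
    obtain ⟨c, hc⟩ := h
    have hc' : u = b * c := mul_right_cancel₀ ha (by linear_combination hc)
    exact dvd_add (Dvd.intro (c * a) (by rw [hc']; ring)) (dvd_mul_left b v)
  · rw [← map_one (AdjoinRoot.mk (PhiBar hMA)), AdjoinRoot.mk_eq_mk, hab] at h
    refine hcon.1 (isUnit_of_dvd_one ?_)
    have hb : b ≠ 0 := fun h0 => ((monic_Phi hMA).map _).ne_zero (by rw [show Polynomial.map (model0 hMA).red (Phi hMA) = a * b from hab, h0, mul_zero])
    obtain ⟨c, hc⟩ := h
    have hc' : v = -(a * c) := mul_right_cancel₀ hb (by linear_combination huv - hc)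
    rw [← huv]
    exact dvd_add (dvd_mul_left a u) (Dvd.intro (-(c * b)) (by rw [hc']; ring))

include hMA in
/-- Every function is a constant times one with primitive expansion. -/
theorem exists_scale_G {y : F1Q M} (hy : y ≠ 0) :
    ∃ γ : Qb, γ ≠ 0 ∧ ∃ h : algebraMap Qb (LaurentSeries Qb) γ * (y : LaurentSeries Qb) ∈ G A,
      gRed A ⟨_, h⟩ ≠ 0 := by
  have := Fact.mk (irreducible_PhiBar hMA)
  obtain ⟨c, hc, z, hyz, hz⟩ := (model1 hMA).exists_scale' hy
  obtain ⟨hzG, hzr⟩ := (compat1 hMA).series z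
  have e : algebraMap Qb (LaurentSeries Qb) c⁻¹ * (y : LaurentSeries Qb) =
      (F1Q M).val.toRingHom z := by
    rw [hyz, IntermediateField.coe_mul]
    show _ * ((F1Q M).val.toRingHom (algebraMap (RatFunc Qb) (F1Q M) (RatFunc.C c)) * _) = _
    rw [(compat1 hMA).se_C, ← mul_assoc, ← map_mul, inv_mul_cancel₀ hc, map_one, one_mul]
    rfl
  refine ⟨c⁻¹, inv_ne_zero hc, e ▸ hzG, ?_⟩
  rw [gRed_congr e.symm hzG, hzr]
  exact (_root_.map_ne_zero _).2 hz

include hMA in
/-- A divisible function whose expansion reduces to one is a power. -/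
theorem mem_powGrp_of_series {m : ℕ} (hm : m.Prime) (hmA : (m : ResidueField A) ≠ 0)
    (f : divGrp Qb (F1Q M) m) {γ : Qb} (hγ : γ ≠ 0)
    (h : algebraMap Qb (LaurentSeries Qb) γ * ((f : (F1Q M)ˣ) : F1Q M).1 ∈ G A)
    (h1 : gRed A ⟨_, h⟩ = 1) : f ∈ powGrp Qb (F1Q M) m := by
  have := Fact.mk (irreducible_PhiBar hMA)
  have := finite_F1Q hMA
  classical
  set y : F1Q M := algebraMap Qb (F1Q M) γ * ((f : (F1Q M)ˣ) : F1Q M) with hy
  have hyS : y ∈ (model1 hMA).S := (compat1 hMA).mem_S (sb1 hMA).injective h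
  have hred : (model1 hMA).red ⟨y, hyS⟩ = 1 := by
    obtain ⟨hzG, hzr⟩ := (compat1 hMA).series ⟨y, hyS⟩
    refine (sb1 hMA).injective ?_
    rw [← hzr, map_one, ← h1]
    rfl
  have : Algebra.IsSeparable (RatFunc (Kappa A)) (AdjoinRoot (PhiBar hMA)) := by
    have := Module.Finite.of_basis (model1 hMA).bb
    refine ((traceForm_nondegenerate_tfae (RatFunc (Kappa A))
      (AdjoinRoot (PhiBar hMA))).out 2 0).1 ?_
    refine LinearMap.BilinForm.nondegenerate_of_det_ne_zero _ (model1 hMA).bb ?_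
    rw [← Algebra.traceMatrix_of_basis]
    exact (model1 hMA).disc_ne
  obtain ⟨d0, d1, dg⟩ := ord_jBase1_data (M := M)
  obtain ⟨z, hz⟩ := exists_pow_eq_of_red_eq_one (model1 hMA) (isArchVal_algebraicClosure A)
    (algebraMap_X_eq (M := M)) (NeZero.ne M) d0 d1 dg (fun P hP => ord_jBase1_dvd P hP) hm hmA
    ⟨y, hyS⟩ hred fun P => by
      show (m : ℤ) ∣ P.ord y
      rw [hy, P.ord_mul ((_root_.map_ne_zero _).2 hγ) (Units.ne_zero _), FF.ord_algebraMap,
        zero_add]
      exact f.2 P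
  obtain ⟨δ, hδ⟩ := IsAlgClosed.exists_pow_nat_eq γ hm.pos
  have hδ0 : δ ≠ 0 := fun h0 => hγ (by rw [← hδ, h0, zero_pow hm.ne_zero])
  have hd : (algebraMap Qb (F1Q M) δ⁻¹ * z) ^ m = ((f : (F1Q M)ˣ) : F1Q M) := by
    rw [mul_pow, hz, ← map_pow, inv_pow, hδ]
    show algebraMap Qb (F1Q M) γ⁻¹ * y = _
    rw [hy, ← mul_assoc, ← map_mul, inv_mul_cancel₀ hγ, map_one, one_mul]
  have hne : algebraMap Qb (F1Q M) δ⁻¹ * z ≠ 0 := fun h0 =>
    (Units.ne_zero _) (by rw [← hd, h0, zero_pow hm.ne_zero])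
  exact ⟨Units.mk0 _ hne, Units.ext hd⟩

end Fermat.Agent.DeligneSerre.Curve
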