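import Fermat.Agent.DeligneSerre.Curve.GaloisKummer
import Fermat.Agent.DeligneSerre.Curve.Model1
import Fermat.Agent.DeligneSerre.SeriesRed
import Fermat.Agent.Arith.Frobenius

/-!
# Inertia and Frobenius on the Kummer group of the field of `±Γ₁(M)`

At a prime `p` prime to `M m` inertia acts trivially and a Frobenius `σ` satisfies
`T_p = σ + p ⟨p⟩ σ⁻¹`.
-/

set_option autoImplicit false
set_option linter.unusedSectionVars false

noncomputable section

open IsLocalRing ModularCurve AlgebraicCurve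
open Fermat.Agent.JacTorsion (divGrp powGrp)
open scoped Pointwise MatrixGroups

namespace Fermat.Agent.DeligneSerre.Curve

open Fermat.Agent.DeligneSerre.SeriesG

local notation "Qb" => AlgebraicClosure ℚ
local notation "GalQ" => AlgebraicClosure ℚ ≃ₐ[ℚ] AlgebraicClosure ℚ
local notation "KK" => Subgroup.zpowers (-1 : (ZMod _)ˣ)

variable {M : ℕ} [NeZero M] [GoodLevel M] {A : ValuationSubring Qb} {m : ℕ} [hm : Fact m.Prime]

/-- The expansion of a function of the field over `ℚ̄`. -/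
abbrev ser (x : F1Q M) : LaurentSeries Qb := x.1

theorem ser_galAut (σ : GalQ) (x : F1Q M) :
    ser (galAut M σ x) = coeffMap (σ : Qb →+* Qb) (ser x) := rfl

theorem ser_diaQ_galAut (u : (ZMod M)ˣ) (σ : GalQ) (x : F1Q M) :
    ser (diaQ M u (galAut M σ x)) = coeffMap (σ : Qb →+* Qb) (ser (diaQ M u x)) := by
  rw [galAut_apply, diaQ_smul]
  rfl

theorem qExpand_const {K : Type*} [Field K] (n : ℕ) [NeZero n] (c : K) :
    qExpand K n (algebraMap K (LaurentSeries K) c) = algebraMap K (LaurentSeries K) c := by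
  rw [algebraMap_laurentSeries_eq_single, qExpand_single, mul_zero]

/-- Two functions with proportional reductions have the same homomorphism. -/
theorem charQ_eq_of_redsTo (hMA : (M : ResidueField A) ≠ 0) (hmA : (m : ResidueField A) ≠ 0)
    (f g : divGrp Qb (F1Q M) m) {γ δ : Qb} (hγ : γ ≠ 0) (hδ : δ ≠ 0)
    {h : LaurentSeries (ResidueField A)} (h0 : h ≠ 0)
    (hf : RedsTo A (algebraMap Qb (LaurentSeries Qb) γ * ser ((f : (F1Q M)ˣ) : F1Q M)) h)
    (hg : RedsTo A (algebraMap Qb (LaurentSeries Qb) δ * ser ((g : (F1Q M)ˣ) : F1Q M)) h) :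
    charQ m f = charQ m g := by
  rw [charQ_eq_iff]
  have key := hf.mul (hg.inv h0)
  rw [mul_inv_cancel₀ h0] at key
  have e : algebraMap Qb (LaurentSeries Qb) γ * ser ((f : (F1Q M)ˣ) : F1Q M) *
      (algebraMap Qb (LaurentSeries Qb) δ * ser ((g : (F1Q M)ˣ) : F1Q M))⁻¹ =
      algebraMap Qb (LaurentSeries Qb) (γ / δ) *
        (((g⁻¹ * f : divGrp Qb (F1Q M) m) : (F1Q M)ˣ) : F1Q M).1 := by
    simp only [Subgroup.coe_mul, Subgroup.coe_inv, Units.val_mul, Units.val_inv_eq_inv_val,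
      IntermediateField.coe_mul, IntermediateField.coe_inv, map_div₀, mul_inv]
    ring
  rw [e] at key
  obtain ⟨hG, h1⟩ := key
  exact mem_powGrp_of_series hMA hm.out hmA _ (div_ne_zero hγ hδ) hG h1

include hm in
/-- Automorphisms acting trivially on the residue field act trivially. -/
theorem galH_eq_self_of_inertia (hMA : (M : ResidueField A) ≠ 0) (hmA : (m : ResidueField A) ≠ 0)
    {σ : GalQ} (hσ : σ ∈ A.inertiaSubgroupIn ℚ)
    (φ : Gamma0.ellParHoms (G1 M) (ZMod m)) : galH m σ φ = φ := by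
  obtain ⟨hA, hr⟩ := Arith.mem_inertia_iff_forall_mem.1 hσ
  obtain ⟨γ, hγ, hG, h0⟩ := exists_scale_G hMA (A := A)
    (y := ((liftDiv φ : (F1Q M)ˣ) : F1Q M)) (Units.ne_zero _)
  have hf : RedsTo A (algebraMap Qb (LaurentSeries Qb) γ *
      ser ((liftDiv φ : (F1Q M)ˣ) : F1Q M)) (gRed A ⟨_, hG⟩) := ⟨hG, rfl⟩
  have hσf := hf.mapCoeff (σ : Qb →+* Qb) (RingHom.id _)
    (fun a => Arith.map_mem_of_mem_decomposition hA a.2)
    (fun a => Arith.residue_eq_iff.2 (hr a a.2))
  rw [map_mul, coeffMap_algebraMap, coeffMap_id, ← ser_galAut] at hσf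
  refine Subtype.ext ?_
  show charQ m (galDiv m σ (liftDiv φ)) = φ.1
  conv_rhs => rw [← charQ_liftDiv φ]
  exact charQ_eq_of_redsTo hMA hmA _ _ ((_root_.map_ne_zero _).2 hγ) hγ h0 hσf hf

theorem charQ_pow (f : divGrp Qb (F1Q M) m) (n : ℕ) : charQ m (f ^ n) = n • charQ m f := by
  induction n with
  | zero => simp [charQ]
  | succ n ih => rw [pow_succ, charQ_mul, ih, succ_nsmul]

variable {p : ℕ} [hp : Fact p.Prime]

include hm in
/-- The congruence relation. -/
theorem hecke_eq_of_frobenius (hA : A.LiesOverPrime p) (hpM : ¬ p ∣ M) (hpm : p ≠ m)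
    {σ : GalQ} (hσ : A.IsFrobeniusAt σ p) (φ : Gamma0.ellParHoms (G1 M) (ZMod m)) :
    RT.GammaH.hecke M KK p (ZMod m) φ.1 = (galH m σ φ).1 +
      p • RT.GammaH.diamond M KK (ZMod m) (pU hpM) (galH m σ⁻¹ φ).1 := by
  have : CharP (ResidueField A) p := Arith.residueField_charP hA hp.out
  have hnat : ∀ n : ℕ, ¬ p ∣ n → (n : ResidueField A) ≠ 0 := fun n h h0 =>
    h ((CharP.cast_eq_zero_iff (ResidueField A) p n).1 h0)
  have hMA := hnat M hpM
  have hmA := hnat m fun h => hpm ((Nat.prime_dvd_prime_iff_eq hp.out hm.out).1 h)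
  have := Arith.residueField_isAlgClosed A
  obtain ⟨hAA, hr⟩ := Arith.isFrobeniusAt_iff_forall_mem.1 hσ
  let τ : ResidueField A ≃+* ResidueField A :=
    RingEquiv.ofBijective (frobenius (ResidueField A) p) ⟨(frobenius (ResidueField A) p).injective,
      fun a => IsAlgClosed.exists_pow_nat_eq a hp.out.pos⟩
  have hmem : ∀ a : A, σ (a : Qb) ∈ A := fun a => Arith.map_mem_of_mem_decomposition hAA a.2
  have hτ : ∀ a : A, residue A ⟨σ (a : Qb), hmem a⟩ = τ (residue A a) := fun a =>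
    (Arith.residue_eq_iff.2 (hr a a.2)).trans (map_pow (residue A) a p)
  have hmem' : ∀ a : A, σ⁻¹ (a : Qb) ∈ A := fun a =>
    Arith.map_mem_of_mem_decomposition (inv_smul_eq_iff.2 hAA.symm) a.2
  have hτ' : ∀ a : A, residue A ⟨σ⁻¹ (a : Qb), hmem' a⟩ = τ.symm (residue A a) := fun a => by
    rw [RingEquiv.eq_symm_apply, ← hτ]
    exact congrArg (residue A) (Subtype.ext (σ.apply_symm_apply (a : Qb)))
  set f := liftDiv φ with hf
  set x : F1Q M := ((f : (F1Q M)ˣ) : F1Q M) with hx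
  obtain ⟨γ, hγ, hxG, hh0⟩ := exists_scale_G hMA (A := A) (y := x) (Units.ne_zero _)
  set h := gRed A ⟨_, hxG⟩ with hh
  have hxr : RedsTo A (algebraMap Qb (LaurentSeries Qb) γ * ser x) h := ⟨hxG, rfl⟩
  obtain ⟨δ, hδ, hdG, hk0⟩ := exists_scale_G hMA (A := A) (y := diaQ M (pU hpM) x)
    ((_root_.map_ne_zero _).2 (Units.ne_zero _))
  set k := gRed A ⟨_, hdG⟩ with hk
  have hdr : RedsTo A (algebraMap Qb (LaurentSeries Qb) δ * ser (diaQ M (pU hpM) x)) k :=
    ⟨hdG, rfl⟩
  obtain ⟨ε, hε, hTG, hj0⟩ := exists_scale_G hMA (A := A) (y := heckeQ hpM x)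
    (heckeQ_ne_zero hpM (Units.ne_zero _))
  set j := gRed A ⟨_, hTG⟩ with hj
  have hTr : RedsTo A (algebraMap Qb (LaurentSeries Qb) ε * ser (heckeQ hpM x)) j := ⟨hTG, rfl⟩
  -- the two sides
  have hR := (hdr.expand (p * p)).mul (RedsTo.prod Finset.univ
    (f := fun i : Fin p => ModFun.twist (zetaQ p ^ (i : ℕ))
      (algebraMap Qb (LaurentSeries Qb) γ * ser x))
    (h := fun _ => h) fun i _ => hxr.twisted hp.out _ (by
      rw [← pow_mul, mul_comm, pow_mul, zetaQ_pow, one_pow]))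
  have htw : ∀ i : Fin p, ModFun.twist (zetaQ p ^ (i : ℕ))
      (algebraMap Qb (LaurentSeries Qb) γ * ser x) =
        algebraMap Qb (LaurentSeries Qb) γ * ModFun.twist (zetaQ p ^ (i : ℕ)) (ser x) := fun i => by
    refine HahnSeries.ext (funext fun n => ?_)
    rw [ModFun.coeff_twist, RedTorsion.coeff_algebraMap_mul, RedTorsion.coeff_algebraMap_mul,
      ModFun.coeff_twist, mul_left_comm]
  simp only [htw, Finset.prod_mul_distrib, Finset.prod_const, Finset.card_univ, Fintype.card_fin,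
    map_mul, qExpand_const, mul_mul_mul_comm] at hR
  have hT := hTr.expand p
  rw [map_mul, qExpand_const, coe_heckeQ] at hT
  rw [← map_pow, ← map_mul, ← heckeSeries] at hR
  have e : algebraMap Qb (LaurentSeries Qb) ε * heckeSeries hpM x =
      algebraMap Qb (LaurentSeries Qb) (ε / (δ * γ ^ p)) *
        (algebraMap Qb (LaurentSeries Qb) (δ * γ ^ p) * heckeSeries hpM x) := by
    rw [← mul_assoc, ← map_mul, div_mul_cancel₀ _ (mul_ne_zero hδ (pow_ne_zero _ hγ))]
  rw [e] at hT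
  have hexp0 : qExpand (ResidueField A) (p * p) k * h ^ p ≠ 0 :=
    mul_ne_zero ((_root_.map_ne_zero _).2 hk0) (pow_ne_zero _ hh0)
  obtain ⟨hc, hc0, hceq⟩ := hR.exists_scalar hT hexp0 ((_root_.map_ne_zero _).2 hj0)
  set c : Qb := ε / (δ * γ ^ p) with hcdef
  have hkey : j = algebraMap (ResidueField A) (LaurentSeries (ResidueField A))
      (residue A ⟨c, hc⟩) *
        (coeffMap (τ : ResidueField A →+* ResidueField A) h * qExpand (ResidueField A) p k) := by
    refine qExpand_injective p ?_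
    rw [hceq, map_mul, map_mul, qExpand_const, qExpand_qExpand,
      EichlerShimura.pow_eq_qExpand_frobenius p h,
      show coeffMap (τ : ResidueField A →+* ResidueField A) h =
        coeffMap (frobenius (ResidueField A) p) h from rfl]
    ring
  -- the right hand side as a function
  obtain ⟨d, hd, hdc⟩ := exists_diaDiv (pU hpM) (galDiv m σ⁻¹ f)
  have hσr := hxr.mapCoeff (σ : Qb →+* Qb) (τ : ResidueField A →+* ResidueField A) hmem hτ
  rw [map_mul, coeffMap_algebraMap, ← ser_galAut] at hσr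
  have hσd := hdr.mapCoeff ((σ⁻¹ : GalQ) : Qb →+* Qb)
    (τ.symm : ResidueField A →+* ResidueField A) hmem' hτ'
  rw [map_mul, coeffMap_algebraMap, ← ser_diaQ_galAut] at hσd
  have hkp : (coeffMap (τ.symm : ResidueField A →+* ResidueField A) k) ^ p =
      qExpand (ResidueField A) p k := by
    rw [EichlerShimura.pow_eq_qExpand_frobenius p, coeffMap_coeffMap]
    congr 1
    rw [coeffMap_congr (g := RingHom.id _) (RingHom.ext fun a => τ.apply_symm_apply a),
      coeffMap_id]
  have hG := ((RedsTo.const hc).mul (hσr.mul (hσd.pow p)))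
  rw [hkp, ← hkey] at hG
  obtain ⟨g, hg, hgc⟩ := exists_heckeDiv hpM f
  have hrhs : RT.GammaH.hecke M KK p (ZMod m) φ.1 = charQ m (galDiv m σ f * d ^ p) := by
    rw [← charQ_liftDiv φ, ← hf, ← hgc]
    refine charQ_eq_of_redsTo hMA hmA g _ hε
      (δ := c * ((σ : Qb →+* Qb) γ * ((σ⁻¹ : GalQ) : Qb →+* Qb) δ ^ p))
      (mul_ne_zero (div_ne_zero hε (mul_ne_zero hδ (pow_ne_zero _ hγ)))
        (mul_ne_zero ((_root_.map_ne_zero _).2 hγ) (pow_ne_zero _ ((_root_.map_ne_zero _).2 hδ))))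
      hj0 ?_ ?_
    · rw [hg, ← hx]; exact hTr
    · have e2 : ser (((galDiv m σ f * d ^ p : divGrp Qb (F1Q M) m) : (F1Q M)ˣ) : F1Q M) =
          ser (galAut M σ x) * ser (diaQ M (pU hpM) (galAut M σ⁻¹ x)) ^ p := by
        simp only [Subgroup.coe_mul, SubgroupClass.coe_pow, Units.val_mul, Units.val_pow_eq_pow_val,
          coe_galDiv, hd, ser, IntermediateField.coe_mul, IntermediateField.coe_pow, ← hx]
      rw [e2]
      convert hG using 1
      rw [map_mul, map_mul, map_pow, mul_pow]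
      ring
  rw [hrhs, charQ_mul, charQ_pow, hdc]
  rfl

end Fermat.Agent.DeligneSerre.Curve
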