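import Fermat.Agent.DeligneSerre.Curve.KummerRoot
import Fermat.Agent.JacTorsion.Orbit

/-!
# The diamond automorphisms of the function field of `±Γ₁(M)`

They are defined over `ℚ`, so they act on the field over `ℚ̄` and commute with Galois.
-/

set_option autoImplicit false
set_option linter.unusedSectionVars false

noncomputable section

open UpperHalfPlane hiding I
open ModularCurve AlgebraicCurve
open Fermat.Agent.ModFun (MerH HolH actMer actHol actMer_algebraMap)
open scoped MatrixGroups IntermediateField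

namespace Fermat.Agent.DeligneSerre.Curve

local notation "GalQ" => AlgebraicClosure ℚ ≃ₐ[ℚ] AlgebraicClosure ℚ

/-- Shortcut: the search through `LaurentSeries` is slow. -/
local instance instAlgebraFCxCurveDiamond (F₀ : IntermediateField ℚ (LaurentSeries ℚ)) :
    Algebra ℂ (JacTorsion.FCx F₀) := inferInstance

/-- Shortcut: the search through `LaurentSeries` is slow. -/
local instance instAlgebraFQCurveDiamond (F₀ : IntermediateField ℚ (LaurentSeries ℚ)) :
    Algebra (AlgebraicClosure ℚ) (JacTorsion.FQ F₀) := inferInstance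

/-- Shortcut: the search through `LaurentSeries` is slow. -/
local instance instAlgebraF1CCurveDiamond (M : ℕ) [NeZero M] [GoodLevel M] :
    Algebra ℂ (F1C M) := inferInstance

variable {M : ℕ} [NeZero M] [GoodLevel M]

theorem dia_injective (u : (ZMod M)ˣ) : Function.Injective (dia M u) := fun f g h => by
  have := congrArg (dia M u⁻¹) h
  rwa [dia_dia, dia_dia, mul_inv_cancel, dia_one, dia_one] at this

variable (M) in
/-- The diamond on holomorphic functions, into the field. -/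
def diaHolC (u : (ZMod M)ˣ) : Hol1 M →ₐ[ℂ] F1C M :=
  (toF1C M).comp (dia M u)

theorem diaHolC_apply (u : (ZMod M)ˣ) (a : Hol1 M) : diaHolC M u a = toF1C M (dia M u a) :=
  AlgHom.comp_apply _ _ _

theorem diaHolC_injective (u : (ZMod M)ˣ) : Function.Injective (diaHolC M u) := fun a b h => by
  rw [diaHolC_apply, diaHolC_apply] at h
  exact dia_injective u (toF1C_injective h)

variable (M) in
/-- The diamond automorphism of the complex field. -/
def diaC (u : (ZMod M)ˣ) : F1C M →ₐ[ℂ] F1C M :=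
  IsFractionRing.liftAlgHom (R := ℂ) (A := Hol1 M) (K := F1C M) (g := diaHolC M u)
    (diaHolC_injective u)

theorem diaC_toF1C (u : (ZMod M)ˣ) (a : Hol1 M) :
    diaC M u (toF1C M a) = toF1C M (dia M u a) := by
  rw [diaC, ← algebraMap_hol1_apply, IsFractionRing.liftAlgHom_apply, ← diaHolC_apply]
  exact IsFractionRing.lift_algebraMap _ a

theorem e11_diaC (u : (ZMod M)ˣ) (x : F1C M) :
    e11 M (diaC M u x) = actMer (diaRep u) (e11 M x) := by
  obtain ⟨a, b, -, rfl⟩ := exists_div_eq1 x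
  simp only [map_div₀, diaC_toF1C, e11_toF1C, actMer_algebraMap]
  rfl

theorem diaC_of_mem_FC (u : (ZMod M)ˣ) (x : F1C M) (hx : (x : LaurentSeries ℂ) ∈ ModFun.FC M) :
    diaC M u x = x := by
  obtain ⟨a, b, -, hab⟩ := ModFun.exists_div_eq (⟨_, hx⟩ : ModFun.FC M)
  have hx' : x = toF1C M (Subalgebra.inclusion Hol_le_Hol1 a)
      / toF1C M (Subalgebra.inclusion Hol_le_Hol1 b) :=
    Subtype.ext (by
      have h := congrArg Subtype.val hab
      rw [IntermediateField.coe_div, ModFun.coe_toFC, ModFun.coe_toFC] at h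
      rw [IntermediateField.coe_div, coe_toF1C, coe_toF1C, qExp1_inclusion, qExp1_inclusion]
      exact h)
  rw [hx', map_div₀, diaC_toF1C, diaC_toF1C, dia_inclusion, dia_inclusion]

theorem diaC_uK (u a : (ZMod M)ˣ) :
    diaC M u ⟨uK ℂ a, uK_mem_baseChange ℂ a⟩ = ⟨uK ℂ (a * u), uK_mem_baseChange ℂ (a * u)⟩ := by
  have h : ∀ b : (ZMod M)ˣ, (⟨uK ℂ b, uK_mem_baseChange ℂ b⟩ : F1C M) = toF1C M (uC b) :=
    fun b => Subtype.ext (qExp1_uC b).symm
  rw [h, h, diaC_toF1C, dia_uC]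

/-- The diamonds preserve the rational field. -/
theorem exists_diaC_rat (u : (ZMod M)ˣ) {w : LaurentSeries ℚ} (hw : w ∈ F1 M) :
    ∃ w' ∈ F1 M, (diaC M u ⟨coeffEmb ℂ w, coeffEmb_mem_laurentBaseChange ℂ hw⟩ :
      LaurentSeries ℂ) = coeffEmb ℂ w' := by
  suffices h : ∃ x : F1C M, ∃ w' ∈ F1 M, (x : LaurentSeries ℂ) = coeffEmb ℂ w ∧
      (diaC M u x : LaurentSeries ℂ) = coeffEmb ℂ w' by
    obtain ⟨x, w', hw', hx, hd⟩ := h
    obtain rfl : x = ⟨coeffEmb ℂ w, coeffEmb_mem_laurentBaseChange ℂ hw⟩ := Subtype.ext hx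
    exact ⟨w', hw', hd⟩
  induction hw using IntermediateField.adjoin_induction with
  | mem z hz =>
    rcases hz with hz | ⟨a, rfl⟩
    · have hFC : coeffEmb ℂ z ∈ ModFun.FC M := by
        rw [ModFun.FC, ← ModFun.laurentBaseChange_eq_fullC]
        exact coeffEmb_mem_laurentBaseChange ℂ hz
      refine ⟨⟨_, coeffEmb_mem_laurentBaseChange ℂ (full_le_F1 hz)⟩, z, full_le_F1 hz, rfl, ?_⟩
      rw [diaC_of_mem_FC u _ hFC]
    · exact ⟨⟨_, uK_mem_baseChange ℂ a⟩, uK ℚ (a * u), uK_mem_F1 _, (coeffEmb_uK ℂ a).symm,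
        (congrArg Subtype.val (diaC_uK u a)).trans (coeffEmb_uK ℂ (a * u)).symm⟩
  | algebraMap c =>
    have h : coeffEmb ℂ (algebraMap ℚ (LaurentSeries ℚ) c)
        = algebraMap ℂ (LaurentSeries ℂ) (algebraMap ℚ ℂ c) := by
      rw [coeffEmb, algebraMap_laurentSeries_eq_single, coeffMap_single,
        algebraMap_laurentSeries_eq_single]
    exact ⟨algebraMap ℂ (F1C M) (algebraMap ℚ ℂ c), algebraMap ℚ _ c,
      IntermediateField.algebraMap_mem _ c, h.symm, by rw [AlgHom.commutes]; exact h.symm⟩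
  | add x y _ _ ihx ihy =>
    obtain ⟨a, a', ha', ea, ea'⟩ := ihx
    obtain ⟨b, b', hb', eb, eb'⟩ := ihy
    exact ⟨a + b, a' + b', add_mem ha' hb', by simp [ea, eb], by simp [ea', eb']⟩
  | inv x _ ihx =>
    obtain ⟨a, a', ha', ea, ea'⟩ := ihx
    exact ⟨a⁻¹, a'⁻¹, inv_mem ha', by simp [ea, map_inv₀], by simp [ea', map_inv₀]⟩
  | mul x y _ _ ihx ihy =>
    obtain ⟨a, a', ha', ea, ea'⟩ := ihx
    obtain ⟨b, b', hb', eb, eb'⟩ := ihy
    exact ⟨a * b, a' * b', mul_mem ha' hb', by simp [ea, eb], by simp [ea', eb']⟩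

variable (M) in
/-- The field over `ℚ̄`. -/
abbrev F1Q : IntermediateField (AlgebraicClosure ℚ)
    (LaurentSeries (AlgebraicClosure ℚ)) :=
  JacTorsion.FQ (F1 M)

variable (M) in
/-- The field over `ℚ̄` inside the complex one. -/
abbrev toC1 : F1Q M →+* F1C M := (JacTorsion.extQ (F1 M)).emb

theorem coe_toC1 (x : F1Q M) :
    (toC1 M x : LaurentSeries ℂ) =
      coeffMap JacTorsion.ιQ (x : LaurentSeries (AlgebraicClosure ℚ)) := rfl

theorem toC1_injective : Function.Injective (toC1 M) := (toC1 M).injective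

/-- An element of the rational field in the field over `ℚ̄`. -/
def ratEl {w : LaurentSeries ℚ} (hw : w ∈ F1 M) : F1Q M :=
  ⟨coeffEmb _ w, coeffEmb_mem_laurentBaseChange _ hw⟩

theorem toC1_ratEl {w : LaurentSeries ℚ} (hw : w ∈ F1 M) :
    toC1 M (ratEl hw) = ⟨coeffEmb ℂ w, coeffEmb_mem_laurentBaseChange ℂ hw⟩ := by
  refine Subtype.ext ?_
  rw [coe_toC1]
  show coeffMap JacTorsion.ιQ (coeffMap _ w) = coeffMap _ w
  rw [coeffMap_coeffMap]
  exact coeffMap_congr (RingHom.ext fun q => by simp) w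

theorem smul_ratEl (σ : GalQ) {w : LaurentSeries ℚ} (hw : w ∈ F1 M) :
    arithmeticGalois (L := AlgebraicClosure ℚ) (F1 M) σ • ratEl hw = ratEl hw := by
  refine Subtype.ext ?_
  rw [coe_arithmeticGalois_smul]
  show coeffMap _ (coeffMap _ w) = coeffMap _ w
  rw [coeffMap_coeffMap]
  exact coeffMap_congr (RingHom.ext fun q => by simp) w

theorem exists_diaQ (u : (ZMod M)ˣ) (x : F1Q M) :
    ∃ y : F1Q M, toC1 M y = diaC M u (toC1 M x) ∧
      ∀ σ : GalQ, diaC M u (toC1 M (arithmeticGalois (L := AlgebraicClosure ℚ) (F1 M) σ • x)) =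
        toC1 M (arithmeticGalois (L := AlgebraicClosure ℚ) (F1 M) σ • y) := by
  suffices h : ∃ x' y : F1Q M, (x' : LaurentSeries (AlgebraicClosure ℚ)) = x.1 ∧
      toC1 M y = diaC M u (toC1 M x') ∧
      ∀ σ : GalQ, diaC M u (toC1 M (arithmeticGalois (L := AlgebraicClosure ℚ) (F1 M) σ • x')) =
        toC1 M (arithmeticGalois (L := AlgebraicClosure ℚ) (F1 M) σ • y) by
    obtain ⟨x', y, hx, h⟩ := h
    rw [Subtype.ext hx] at h
    exact ⟨y, h⟩
  obtain ⟨x, hx⟩ := x
  show ∃ x' y : F1Q M, (x' : LaurentSeries (AlgebraicClosure ℚ)) = x ∧ _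
  induction hx using IntermediateField.adjoin_induction with
  | mem z hz =>
    obtain ⟨w, hw, rfl⟩ := hz
    obtain ⟨w', hw', h⟩ := exists_diaC_rat u hw
    have h1 : diaC M u (toC1 M (ratEl hw)) = toC1 M (ratEl hw') := by
      rw [toC1_ratEl, toC1_ratEl]; exact Subtype.ext h
    exact ⟨ratEl hw, ratEl hw', rfl, h1.symm, fun σ => by rw [smul_ratEl, smul_ratEl, h1]⟩
  | algebraMap c =>
    have h : ∀ d : AlgebraicClosure ℚ, diaC M u (toC1 M (algebraMap _ (F1Q M) d))
        = toC1 M (algebraMap _ (F1Q M) d) := fun d => by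
      rw [(JacTorsion.extQ (F1 M)).emb_algebraMap, AlgHom.commutes]
    exact ⟨algebraMap _ _ c, algebraMap _ _ c, rfl, (h c).symm, fun σ => by
      rw [SemilinearAut.smul_algebraMap, h]⟩
  | add a b _ _ iha ihb =>
    obtain ⟨x₁, y₁, e₁, t₁, s₁⟩ := iha
    obtain ⟨x₂, y₂, e₂, t₂, s₂⟩ := ihb
    exact ⟨x₁ + x₂, y₁ + y₂, by rw [IntermediateField.coe_add, e₁, e₂],
      by simp only [map_add, t₁, t₂], fun σ => by simp only [smul_add, map_add, s₁, s₂]⟩
  | inv a _ iha =>
    obtain ⟨x₁, y₁, e₁, t₁, s₁⟩ := iha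
    exact ⟨x₁⁻¹, y₁⁻¹, by rw [IntermediateField.coe_inv, e₁],
      by simp only [map_inv₀, t₁], fun σ => by simp only [smul_inv'', map_inv₀, s₁]⟩
  | mul a b _ _ iha ihb =>
    obtain ⟨x₁, y₁, e₁, t₁, s₁⟩ := iha
    obtain ⟨x₂, y₂, e₂, t₂, s₂⟩ := ihb
    exact ⟨x₁ * x₂, y₁ * y₂, by rw [IntermediateField.coe_mul, e₁, e₂],
      by simp only [map_mul, t₁, t₂], fun σ => by simp only [smul_mul', map_mul, s₁, s₂]⟩

variable (M) in
/-- The underlying map of the diamond over `ℚ̄`. -/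
irreducible_def diaQFun (u : (ZMod M)ˣ) (x : F1Q M) : F1Q M := (exists_diaQ u x).choose

theorem toC1_diaQFun (u : (ZMod M)ˣ) (x : F1Q M) :
    toC1 M (diaQFun M u x) = diaC M u (toC1 M x) := by
  rw [diaQFun_def]
  exact (exists_diaQ u x).choose_spec.1

theorem diaQFun_smul (u : (ZMod M)ˣ) (σ : GalQ) (x : F1Q M) :
    diaQFun M u (arithmeticGalois (L := AlgebraicClosure ℚ) (F1 M) σ • x) = arithmeticGalois (L := AlgebraicClosure ℚ) (F1 M) σ • diaQFun M u x := by
  refine toC1_injective ?_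
  rw [toC1_diaQFun, diaQFun_def]
  exact (exists_diaQ u x).choose_spec.2 σ

variable (M) in
/-- The diamond automorphism over `ℚ̄`. -/
def diaQ (u : (ZMod M)ˣ) : F1Q M →+* F1Q M where
  toFun := diaQFun M u
  map_one' := toC1_injective (by rw [toC1_diaQFun, map_one, map_one])
  map_mul' x y := toC1_injective (by
    rw [map_mul, toC1_diaQFun, toC1_diaQFun, toC1_diaQFun, map_mul, map_mul])
  map_zero' := toC1_injective (by rw [toC1_diaQFun, map_zero, map_zero])
  map_add' x y := toC1_injective (by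
    rw [map_add, toC1_diaQFun, toC1_diaQFun, toC1_diaQFun, map_add, map_add])

theorem toC1_diaQ (u : (ZMod M)ˣ) (x : F1Q M) : toC1 M (diaQ M u x) = diaC M u (toC1 M x) :=
  toC1_diaQFun u x

theorem diaQ_smul (u : (ZMod M)ˣ) (σ : GalQ) (x : F1Q M) :
    diaQ M u (arithmeticGalois (L := AlgebraicClosure ℚ) (F1 M) σ • x) = arithmeticGalois (L := AlgebraicClosure ℚ) (F1 M) σ • diaQ M u x :=
  diaQFun_smul u σ x

end Fermat.Agent.DeligneSerre.Curve
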