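import Fermat.Agent.DeligneSerre.Curve.Field
import Fermat.Agent.ModFun.Uniformisation

/-!
# The field of `±Γ₁(M)` is uniformised by the upper half plane
-/

set_option autoImplicit false

noncomputable section

open UpperHalfPlane hiding I
open Function Filter Complex CongruenceSubgroup
open Fermat.Agent.ModFun (invHol jInv tr tr_mk jd Uniformisation MerH)
open scoped Manifold MatrixGroups

namespace Fermat.Agent.DeligneSerre.Curve

variable {M : ℕ} [NeZero M] [GoodLevel M]

/-- Shortcut: the search through `LaurentSeries` is slow. -/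
local instance instAlgebraF1CEmbed : Algebra ℂ (F1C M) := inferInstance

/-- The translates of `j (M τ)` and of `u` separate the cosets. -/
theorem coset1_ext {x y : SL(2, ℤ)}
    (hj : ∀ τ : ℍ, (jd (dvd_refl M) : ℍ → ℂ) (x⁻¹ • τ) = (jd (dvd_refl M) : ℍ → ℂ) (y⁻¹ • τ))
    (hu : ∀ τ : ℍ, (uC (M := M) 1 : ℍ → ℂ) (x⁻¹ • τ) = (uC (M := M) 1 : ℍ → ℂ) (y⁻¹ • τ)) :
    (x : SL(2, ℤ) ⧸ G1 M) = y := by
  rw [QuotientGroup.eq]
  have h0 : x⁻¹ * y ∈ Gamma0 M := ModFun.mem_Gamma0_of_jd_smul _ fun τ => by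
    have := hj (y • τ)
    rw [inv_smul_smul, ModFun.jd_apply, ModFun.jd_apply] at this
    rwa [mul_smul]
  obtain ⟨d, hd⟩ := isUnit_lowerRight h0
  have h1 : uC (M := M) d = uC 1 := by
    refine hol1_ext fun τ => ?_
    rw [← dia_uC_one, ← comp_gamma0_eq_dia (uC 1) h0 d (Or.inl hd.symm)]
    have := hu (y • τ)
    rw [inv_smul_smul] at this
    rwa [mul_smul]
  have h2 := congrArg (qExp1 M) h1
  rw [qExp1_uC, qExp1_uC] at h2
  rw [mem_G1_iff]
  refine ⟨Gamma0_mem.1 h0, ?_⟩
  rcases uK_eq_iff (Nat.cast_ne_zero.2 (NeZero.ne M)) h2.symm with h | h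
  · left; rw [← hd, h]; rfl
  · right; rw [← hd, h]; simp

/-- The field of `±Γ₁(M)` on the upper half plane. -/
abbrev uniformisation1 (M : ℕ) [NeZero M] [GoodLevel M] : Uniformisation M (G1 M) (F1C M) where
  neg_one_mem := neg_one_mem_G1
  toField := toF1C M
  toField_injective := toF1C_injective
  exists_div := exists_div_eq1
  separates c c' h := by
    induction c using QuotientGroup.induction_on with
    | H x =>
      induction c' using QuotientGroup.induction_on with
      | H y =>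
        refine coset1_ext (fun τ => ?_) fun τ => ?_
        · have := congrFun (congrArg Subtype.val
            (h (Subalgebra.inclusion Hol_le_Hol1 (jd (dvd_refl M))))) τ
          rwa [tr_mk, tr_mk] at this
        · have := congrFun (congrArg Subtype.val (h (uC 1))) τ
          rwa [tr_mk, tr_mk] at this

variable (M)

/-- `j` in the complex field. -/
def jF1 : F1C M := toF1C M jInv

variable {M}

theorem coe_jF1 : (jF1 M : LaurentSeries ℂ) = ModularCurve.jqModC ℂ := by
  rw [jF1, coe_toF1C, ← ModFun.qExp_jInv (N := M)]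
  rfl

/-- The function field as meromorphic functions on `ℍ`. -/
abbrev e11 (M : ℕ) [NeZero M] [GoodLevel M] : F1C M →ₐ[ℂ] MerH :=
  (uniformisation1 M).emb ((1 : SL(2, ℤ)) : SL(2, ℤ) ⧸ G1 M)

open scoped Classical in
theorem ord_jF1_sub_dvd (v : AlgebraicCurve.Place ℂ (F1C M)) (a : ℂ)
    (h : 0 < v.ord (jF1 M - algebraMap ℂ (F1C M) a)) :
    v.ord (jF1 M - algebraMap ℂ (F1C M) a) ∣
      ((if a = 0 then 3 else if a = 1728 then 2 else 1 : ℕ) : ℤ) :=
  (uniformisation1 M).ord_j_sub_dvd v a h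

theorem ord_jF1_dvd (v : AlgebraicCurve.Place ℂ (F1C M)) (h : v.ord (jF1 M) < 0) :
    v.ord (jF1 M) ∣ (M : ℤ) :=
  (uniformisation1 M).ord_j_dvd v h

end Fermat.Agent.DeligneSerre.Curve
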