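import Fermat.Agent.DeligneSerre.Curve.HeckeKummer

/-!
# Galois on the Kummer group of the field of `±Γ₁(M)` over `ℚ̄`

It commutes with the Hecke and diamond operators on homomorphisms.
-/

set_option autoImplicit false
set_option linter.unusedSectionVars false

noncomputable section

open ModularCurve AlgebraicCurve
open Fermat.Agent.JacTorsion (divGrp powGrp)
open scoped MatrixGroups

namespace Fermat.Agent.DeligneSerre.Curve

local notation "Qb" => AlgebraicClosure ℚ
local notation "GalQ" => AlgebraicClosure ℚ ≃ₐ[ℚ] AlgebraicClosure ℚ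
local notation "KK" => Subgroup.zpowers (-1 : (ZMod _)ˣ)

/-- Shortcut: the search through `LaurentSeries` is slow. -/
local instance instAlgebraFQCurveGaloisKummer (F₀ : IntermediateField ℚ (LaurentSeries ℚ)) :
    Algebra (AlgebraicClosure ℚ) (JacTorsion.FQ F₀) := inferInstance

variable {M : ℕ} [NeZero M] [GoodLevel M] {p : ℕ} [hp : Fact p.Prime] {m : ℕ} [NeZero m]

/-- A Galois element as an automorphism of the field. -/
def galAut (M : ℕ) [NeZero M] [GoodLevel M] (σ : GalQ) : F1Q M ≃+* F1Q M :=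
  SemilinearAut.toRingAut (arithmeticGalois (L := AlgebraicClosure ℚ) (F1 M) σ)

theorem galAut_apply (σ : GalQ) (x : F1Q M) :
    galAut M σ x = arithmeticGalois (L := AlgebraicClosure ℚ) (F1 M) σ • x := rfl

theorem coe_galAut (σ : GalQ) (x : F1Q M) :
    (galAut M σ x : LaurentSeries Qb) = coeffMap (σ : Qb →+* Qb) (x : LaurentSeries Qb) := rfl

theorem galAut_mem_divGrp (σ : GalQ) {u : (F1Q M)ˣ} (hu : u ∈ divGrp Qb (F1Q M) m) :
    Units.map (galAut M σ).toRingHom.toMonoidHom u ∈ divGrp Qb (F1Q M) m := fun P => by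
  have h := SemilinearAut.ord_smul (arithmeticGalois (L := AlgebraicClosure ℚ) (F1 M) σ)
    ((arithmeticGalois (L := AlgebraicClosure ℚ) (F1 M) σ)⁻¹ • P) (u : F1Q M)
  rw [smul_inv_smul] at h
  exact h ▸ hu _

/-- Galois on divisible functions. -/
def galDiv (m : ℕ) [NeZero m] (σ : GalQ) : divGrp Qb (F1Q M) m →* divGrp Qb (F1Q M) m :=
  ((Units.map (galAut M σ).toRingHom.toMonoidHom).comp (Subgroup.subtype _)).codRestrict _
    fun f => galAut_mem_divGrp σ f.2

theorem coe_galDiv (σ : GalQ) (f : divGrp Qb (F1Q M) m) :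
    ((galDiv m σ f : (F1Q M)ˣ) : F1Q M) = galAut M σ ((f : (F1Q M)ˣ) : F1Q M) := rfl

/-- A lift of a homomorphism to a function. -/
def liftDiv (φ : Gamma0.ellParHoms (G1 M) (ZMod m)) : divGrp Qb (F1Q M) m :=
  (exists_charQ_eq φ).choose

theorem charQ_liftDiv (φ : Gamma0.ellParHoms (G1 M) (ZMod m)) : charQ m (liftDiv φ) = φ.1 :=
  (exists_charQ_eq φ).choose_spec

theorem charQ_inv (f : divGrp Qb (F1Q M) m) : charQ m f⁻¹ = -charQ m f := by
  simp [charQ, map_inv]

theorem charQ_eq_iff (f g : divGrp Qb (F1Q M) m) :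
    charQ m f = charQ m g ↔ g⁻¹ * f ∈ powGrp Qb (F1Q M) m := by
  rw [mem_powGrp_iff_charQ, charQ_mul, charQ_inv, neg_add_eq_zero]
  exact eq_comm

theorem charQ_eq_of_val_eq {f g : divGrp Qb (F1Q M) m}
    (h : ((f : (F1Q M)ˣ) : F1Q M) = ((g : (F1Q M)ˣ) : F1Q M)) : charQ m f = charQ m g := by
  rw [Subtype.ext (Units.ext h) (a1 := f) (a2 := g)]

theorem charQ_galDiv_congr (σ : GalQ) {f g : divGrp Qb (F1Q M) m} (h : charQ m f = charQ m g) :
    charQ m (galDiv m σ f) = charQ m (galDiv m σ g) := by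
  rw [charQ_eq_iff] at h ⊢
  rw [← map_inv, ← map_mul]
  obtain ⟨u, hu⟩ := h
  refine ⟨Units.map (galAut M σ).toRingHom.toMonoidHom u, ?_⟩
  rw [powMonoidHom_apply] at hu ⊢
  rw [← map_pow, hu]
  rfl

/-- Galois on homomorphisms. -/
def galH (m : ℕ) [NeZero m] (σ : GalQ) :
    Gamma0.ellParHoms (G1 M) (ZMod m) →+ Gamma0.ellParHoms (G1 M) (ZMod m) :=
  AddMonoidHom.mk' (fun φ => ⟨charQ m (galDiv m σ (liftDiv φ)), charQ_mem _⟩) fun φ ψ => by
    refine Subtype.ext ?_
    show charQ m _ = charQ m _ + charQ m _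
    rw [← charQ_mul, ← map_mul]
    refine charQ_galDiv_congr σ ?_
    rw [charQ_mul, charQ_liftDiv, charQ_liftDiv, charQ_liftDiv]
    rfl

theorem galH_charQ (σ : GalQ) (f : divGrp Qb (F1Q M) m) :
    (galH m σ ⟨charQ m f, charQ_mem f⟩).1 = charQ m (galDiv m σ f) :=
  charQ_galDiv_congr σ (charQ_liftDiv _)

theorem galH_mul (σ τ : GalQ) (φ : Gamma0.ellParHoms (G1 M) (ZMod m)) :
    galH m (σ * τ) φ = galH m σ (galH m τ φ) := by
  refine Subtype.ext ?_
  show charQ m _ = (galH m σ ⟨charQ m (galDiv m τ (liftDiv φ)), charQ_mem _⟩).1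
  rw [galH_charQ]
  refine charQ_eq_of_val_eq ?_
  simp only [coe_galDiv, galAut_apply, map_mul, mul_smul]

theorem galH_one (φ : Gamma0.ellParHoms (G1 M) (ZMod m)) : galH m 1 φ = φ := by
  refine Subtype.ext ?_
  show charQ m _ = φ.1
  rw [← charQ_liftDiv φ]
  refine charQ_eq_of_val_eq ?_
  simp only [coe_galDiv, galAut_apply, map_one, one_smul]

/-- A root of unity of prime order different from one generates. -/
theorem isPrimitiveRoot_zetaQ : IsPrimitiveRoot (zetaQ p) p := by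
  have hne : zetaQ p ≠ 1 := fun h => by
    have h1 := ιQ_zetaQ p
    rw [h, Units.val_one, map_one] at h1
    have h2 : IsPrimitiveRoot ((zetaC p : ℂˣ) : ℂ) p := by
      have h3 := Complex.isPrimitiveRoot_exp p hp.out.ne_zero
      convert h3 using 1
      simp [zetaC, ModFun.affineRoot]
    rw [← h1] at h2
    exact hp.out.ne_one (h2.unique IsPrimitiveRoot.one)
  exact IsPrimitiveRoot.iff_orderOf.2 (orderOf_eq_prime (zetaQ_pow p) hne)

/-- `T_p` commutes with Galois. -/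
theorem heckeQ_galAut (hpM : ¬ p ∣ M) (σ : GalQ) (x : F1Q M) :
    heckeQ hpM (galAut M σ x) = galAut M σ (heckeQ hpM x) := by
  classical
  refine Subtype.ext (qExpand_injective p ?_)
  rw [coe_heckeQ, coe_galAut, ← coeffMap_qExpand, coe_heckeQ, heckeSeries, heckeSeries, map_mul,
    map_prod, coeffMap_qExpand]
  congr 1
  · rw [galAut_apply, diaQ_smul]
    rfl
  · have hζ := isPrimitiveRoot_zetaQ (p := p)
    have hex : ∀ j : Fin p, ∃ i : Fin p,
        zetaQ p ^ (i : ℕ) = Units.map (σ : Qb →+* Qb).toMonoidHom (zetaQ p ^ (j : ℕ)) := fun j => by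
      have h : (Units.map (σ : Qb →+* Qb).toMonoidHom (zetaQ p ^ (j : ℕ))) ^ p = 1 := by
        rw [← map_pow, ← pow_mul, mul_comm, pow_mul, zetaQ_pow, one_pow, map_one]
      obtain ⟨i, hi, he⟩ := (IsPrimitiveRoot.coe_units_iff.2 hζ).eq_pow_of_pow_eq_one
        (ξ := ((Units.map (σ : Qb →+* Qb).toMonoidHom (zetaQ p ^ (j : ℕ)) : Qbˣ) : Qb))
        (by rw [← Units.val_pow_eq_pow_val, h, Units.val_one])
      exact ⟨⟨i, hi⟩, Units.ext (by rw [Units.val_pow_eq_pow_val]; exact he)⟩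
    choose π hπ using hex
    have hinj : Function.Injective π := fun i j h => by
      have h1 := (hπ i).symm.trans ((congrArg (fun k : Fin p => zetaQ p ^ (k : ℕ)) h).trans (hπ j))
      exact Fin.ext (hζ.pow_inj i.2 j.2 (Units.map_injective (σ : Qb →+* Qb).injective h1))
    refine (Fintype.prod_bijective π (Finite.injective_iff_bijective.1 hinj) _ _ fun j => ?_).symm
    rw [coeffMap_twist, hπ, coe_galAut]

theorem hecke_galH (hpM : ¬ p ∣ M) (σ : GalQ) (φ : Gamma0.ellParHoms (G1 M) (ZMod m)) :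
    RT.GammaH.hecke M KK p (ZMod m) (galH m σ φ).1 =
      (galH m σ ⟨RT.GammaH.hecke M KK p (ZMod m) φ.1, hecke_mem_ellParHoms φ.2⟩).1 := by
  obtain ⟨g, hg, hgc⟩ := exists_heckeDiv hpM (galDiv m σ (liftDiv φ))
  obtain ⟨g', hg', hgc'⟩ := exists_heckeDiv hpM (liftDiv φ)
  rw [charQ_liftDiv] at hgc'
  show RT.GammaH.hecke M KK p (ZMod m) (charQ m _) = _
  rw [← hgc]
  simp only [← hgc']
  rw [galH_charQ]
  exact charQ_eq_of_val_eq (by rw [hg, coe_galDiv, coe_galDiv, hg', heckeQ_galAut])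

theorem diamond_galH (u : (ZMod M)ˣ) (σ : GalQ) (φ : Gamma0.ellParHoms (G1 M) (ZMod m)) :
    RT.GammaH.diamond M KK (ZMod m) u (galH m σ φ).1 =
      (galH m σ ⟨RT.GammaH.diamond M KK (ZMod m) u φ.1, diamond_mem_ellParHoms u φ.2⟩).1 := by
  obtain ⟨g, hg, hgc⟩ := exists_diaDiv u (galDiv m σ (liftDiv φ))
  obtain ⟨g', hg', hgc'⟩ := exists_diaDiv u (liftDiv φ)
  rw [charQ_liftDiv] at hgc'
  show RT.GammaH.diamond M KK (ZMod m) u (charQ m _) = _
  rw [← hgc]
  simp only [← hgc']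
  rw [galH_charQ]
  exact charQ_eq_of_val_eq (by
    rw [hg, coe_galDiv, coe_galDiv, hg', galAut_apply, diaQ_smul, galAut_apply])

end Fermat.Agent.DeligneSerre.Curve
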