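import Fermat.Agent.DeligneSerre.Curve.Congruence

/-!
# The Galois action on homomorphisms as matrices modulo `m`

In the coordinates given by `homPts` Galois acts by matrices commuting with those of the good
operators; the action factors through a finite level.
-/

set_option autoImplicit false
set_option linter.unusedSectionVars false

noncomputable section

open ModularCurve AlgebraicCurve
open Fermat.Agent.JacTorsion (divGrp powGrp)
open scoped MatrixGroups

namespace Fermat.Agent.DeligneSerre.Curve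

local notation "Qb" => AlgebraicClosure ℚ
local notation "GalQ" => AlgebraicClosure ℚ ≃ₐ[ℚ] AlgebraicClosure ℚ
local notation "KK" => Subgroup.zpowers (-1 : (ZMod _)ˣ)

variable {M : ℕ} [NeZero M] [GoodLevel M] {m : ℕ} [NeZero m]

/-- The values at the chosen points. -/
def vals (φ : Gamma0.ellParHoms (G1 M) (ZMod m)) : Fin (homRank M) → ZMod m :=
  fun a => φ.1 (Additive.ofMul (homPts M a))

theorem vals_injective : Function.Injective (vals (M := M) (m := m)) :=
  (homPts_bijective M (ZMod m)).1

theorem vals_surjective : Function.Surjective (vals (M := M) (m := m)) :=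
  (homPts_bijective M (ZMod m)).2

/-- The coordinates as an additive equivalence. -/
def valsEquiv : Gamma0.ellParHoms (G1 M) (ZMod m) ≃+ (Fin (homRank M) → ZMod m) :=
  { Equiv.ofBijective _ ⟨vals_injective, vals_surjective⟩ with
    map_add' := fun φ ψ => funext fun _a => AddMonoidHom.add_apply φ.1 ψ.1 _ }

theorem valsEquiv_apply (φ : Gamma0.ellParHoms (G1 M) (ZMod m)) : valsEquiv φ = vals φ := rfl

/-- The matrix of a Galois element. -/
def gMat (m : ℕ) [NeZero m] (σ : GalQ) :
    Matrix (Fin (homRank M)) (Fin (homRank M)) (ZMod m) :=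
  LinearMap.toMatrix' (((valsEquiv (M := M)).toAddMonoidHom.comp
    ((galH m σ).comp (valsEquiv (M := M) (m := m)).symm.toAddMonoidHom)).toZModLinearMap m)

theorem gMat_mulVec (σ : GalQ) (φ : Gamma0.ellParHoms (G1 M) (ZMod m)) :
    (gMat m σ).mulVec (vals φ) = vals (galH m σ φ) := by
  rw [gMat, ← Matrix.toLin'_apply, Matrix.toLin'_toMatrix', AddMonoidHom.coe_toZModLinearMap,
    AddMonoidHom.comp_apply, AddMonoidHom.comp_apply]
  show valsEquiv (galH m σ (valsEquiv.symm (valsEquiv φ))) = _
  rw [AddEquiv.symm_apply_apply, valsEquiv_apply]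

theorem matrix_ext_vals {B C : Matrix (Fin (homRank M)) (Fin (homRank M)) (ZMod m)}
    (h : ∀ φ : Gamma0.ellParHoms (G1 M) (ZMod m), B.mulVec (vals φ) = C.mulVec (vals φ)) :
    B = C :=
  Matrix.ext_of_mulVec_single fun i => by
    obtain ⟨φ, hφ⟩ := vals_surjective (M := M) (Pi.single i (1 : ZMod m))
    rw [← hφ]
    exact h φ

theorem gMat_one : gMat (M := M) m 1 = 1 := matrix_ext_vals fun φ => by
  rw [gMat_mulVec, galH_one, Matrix.one_mulVec]

theorem gMat_mul (σ τ : GalQ) : gMat (M := M) m (σ * τ) = gMat m σ * gMat m τ :=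
  matrix_ext_vals fun φ => by
    rw [← Matrix.mulVec_mulVec, gMat_mulVec, gMat_mulVec, gMat_mulVec, galH_mul]

/-- The matrix of a good operator modulo `m`. -/
def opMatMod (m : ℕ) (i : GoodOp M) : Matrix (Fin (homRank M)) (Fin (homRank M)) (ZMod m) :=
  (opMat i).map (Int.cast : ℤ → ZMod m)

theorem opMatMod_mulVec (i : GoodOp M) (φ : Gamma0.ellParHoms (G1 M) (ZMod m)) :
    (opMatMod m i).mulVec (vals φ) =
      vals ⟨goodOp (ZMod m) i φ.1, goodOp_mem i φ.2⟩ := funext fun b => by
  refine Eq.trans ?_ (goodOp_apply_homPts (S := ZMod m) i φ.2 b).symm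
  simp [Matrix.mulVec, dotProduct, opMatMod, vals]

theorem commute_gMat (σ : GalQ) (i : GoodOp M) : Commute (opMatMod m i) (gMat m σ) :=
  matrix_ext_vals fun φ => by
    rw [← Matrix.mulVec_mulVec, ← Matrix.mulVec_mulVec, gMat_mulVec, opMatMod_mulVec,
      opMatMod_mulVec, gMat_mulVec]
    refine congrArg vals (Subtype.ext ?_)
    rcases i with p | u
    · have := Fact.mk p.2.1
      exact hecke_galH p.2.2 σ φ
    · exact diamond_galH u σ φ

section Prime

variable [hm : Fact m.Prime] {A : ValuationSubring Qb}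

include hm

theorem gMat_eq_one_of_inertia (hMA : (M : IsLocalRing.ResidueField A) ≠ 0)
    (hmA : (m : IsLocalRing.ResidueField A) ≠ 0) {σ : GalQ} (hσ : σ ∈ A.inertiaSubgroupIn ℚ) :
    gMat (M := M) m σ = 1 := matrix_ext_vals fun φ => by
  rw [gMat_mulVec, galH_eq_self_of_inertia hMA hmA hσ, Matrix.one_mulVec]

theorem opMatMod_eq_of_frobenius {p : ℕ} [hp : Fact p.Prime] (hA : A.LiesOverPrime p)
    (hpM : ¬ p ∣ M) (hpm : p ≠ m) {σ : GalQ} (hσ : A.IsFrobeniusAt σ p) :
    opMatMod m (.inl ⟨p, hp.out, hpM⟩) =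
      gMat m σ + (p : ZMod m) • (opMatMod m (.inr (pU hpM)) * gMat m σ⁻¹) :=
  matrix_ext_vals fun φ => by
    rw [Matrix.add_mulVec, Matrix.smul_mulVec, ← Matrix.mulVec_mulVec, gMat_mulVec,
      gMat_mulVec, opMatMod_mulVec, opMatMod_mulVec]
    funext a
    show RT.GammaH.hecke M KK p (ZMod m) φ.1 (Additive.ofMul (homPts M a)) = _
    rw [hecke_eq_of_frobenius hA hpM hpm hσ φ, AddMonoidHom.add_apply, AddMonoidHom.smul_apply,
      nsmul_eq_mul]
    rfl

end Prime

/-- A series of the field over `ℚ̄` has its coefficients in a number field. -/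
theorem ser_mem_finCoeff (x : F1Q M) : ser x ∈ RedTorsion.finCoeff Qb := by
  obtain ⟨x, hx⟩ := x
  change x ∈ RedTorsion.finCoeff Qb
  induction hx using IntermediateField.adjoin_induction with
  | mem z hz =>
    obtain ⟨w, -, rfl⟩ := hz
    refine RedTorsion.mem_finCoeff.2 ⟨⊥, inferInstance, fun k => ?_⟩
    rw [coeffEmb, coeffMap_coeff]
    exact IntermediateField.algebraMap_mem _ _
  | algebraMap c => exact RedTorsion.algebraMap_mem_finCoeff c
  | add a b _ _ ha hb => exact add_mem ha hb
  | inv a _ ha => exact inv_mem ha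
  | mul a b _ _ ha hb => exact mul_mem ha hb

/-- The matrices factor through a finite level. -/
theorem gMat_factors : ∃ L : IntermediateField ℚ Qb, FiniteDimensional ℚ L ∧
    ∀ σ : GalQ, (∀ x ∈ L, σ x = x) → gMat (M := M) m σ = 1 := by
  choose φ hφ using fun a : Fin (homRank M) =>
    vals_surjective (M := M) (Pi.single a (1 : ZMod m))
  choose E hfd hE using fun a =>
    RedTorsion.mem_finCoeff.1 (ser_mem_finCoeff ((liftDiv (φ a) : (F1Q M)ˣ) : F1Q M))
  have := hfd
  refine ⟨⨆ a, E a, IntermediateField.finiteDimensional_iSup_of_finite, fun σ hσ => ?_⟩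
  refine Matrix.ext_of_mulVec_single fun a => ?_
  rw [← hφ a, gMat_mulVec, Matrix.one_mulVec]
  refine congrArg vals (Subtype.ext ?_)
  show charQ m (galDiv m σ (liftDiv (φ a))) = (φ a).1
  conv_rhs => rw [← charQ_liftDiv (φ a)]
  refine charQ_eq_of_val_eq (Subtype.ext (HahnSeries.ext (funext fun n => ?_)))
  rw [coe_galDiv, coe_galAut, coeffMap_coeff]
  exact hσ _ (le_iSup E a (hE a n))

end Fermat.Agent.DeligneSerre.Curve
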