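import Fermat.Agent.DeligneSerre.Curve.Diamond
import Fermat.Agent.DeligneSerre.PeriodsForms
import Fermat.Agent.GaloisReps.DegeneracyFun

/-!
# The Hecke operator at a good prime as a product of translates of functions of `±Γ₁(M)`

`T_p f (q) = (⟨p⟩ f)(q ^ p) ∏ⱼ f(ζʲ q ^ (1 / p))`; this preserves the field over `ℚ̄`.
-/

set_option autoImplicit false
set_option linter.unusedSectionVars false

noncomputable section

open UpperHalfPlane hiding I
open ModularCurve AlgebraicCurve
open Matrix.SpecialLinearGroup (mapGL)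
open Fermat.Agent.ModFun (MerH HolH CuspAlg MeroAtInfty actMer actHol actMer_algebraMap affine
  scaleH affineRoot)
open Fermat.Agent.GaloisReps (actGL actGLHom actGL_algebraMap actGL_mul actGL_congr actGL_mapGL
  det_mul_pos det_mapGL_pos)
open Fermat.Agent.RT.GammaH (HIdx hRep GLR gamma0Elt_lowerRight)
open Fermat.Agent.JacTorsion (zetaPow zetaPow_add zetaPow_zero)
open scoped MatrixGroups Manifold IntermediateField

namespace Fermat.Agent.DeligneSerre.Curve

variable {M : ℕ} {p : ℕ} [hp : Fact p.Prime]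

theorem det_hRep_pos (i : HIdx M p) : 0 < (hRep M p i).det.val :=
  det_pos_of_mem_heckeSet hp.out.pos
    (RT.GammaH.hRep_mem_heckeSet (K := Subgroup.zpowers (-1)) i)

/-- The product of the translates of a function by the standard representatives of `T_p`. -/
def heckeProd (M p : ℕ) [Fact p.Prime] : MerH →* MerH where
  toFun h := ∏ i : HIdx M p, actGL (hRep M p i) (det_hRep_pos i) h
  map_one' := by simp
  map_mul' x y := by simp [Finset.prod_mul_distrib]

theorem heckeProd_apply (h : MerH) :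
    heckeProd M p h = ∏ i : HIdx M p, actGL (hRep M p i) (det_hRep_pos i) h := rfl

theorem heckeProd_div (x y : MerH) : heckeProd M p (x / y) = heckeProd M p x / heckeProd M p y := by
  simp [heckeProd_apply]

theorem zetaPow_finset_sum {m : ℕ} [NeZero m] {ι : Type*} (s : Finset ι) (a : ι → ZMod m) :
    zetaPow m (∑ i ∈ s, a i) = ∏ i ∈ s, zetaPow m (a i) := by
  classical
  induction s using Finset.induction with
  | empty => simpa using zetaPow_zero (m := m)
  | insert i s hi ih => rw [Finset.sum_insert hi, Finset.prod_insert hi, zetaPow_add, ih]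

/-- The monodromy of the product is the Hecke operator of the monodromy. -/
theorem actMer_heckeProd {m : ℕ} [NeZero m] {φ : Additive (G1 M) →+ ZMod m} {h : MerH}
    (hφ : ∀ γ : G1 M,
      actMer (γ : SL(2, ℤ)) h = algebraMap ℂ MerH (zetaPow m (φ (Additive.ofMul γ))) * h)
    (γ : G1 M) :
    actMer (γ : SL(2, ℤ)) (heckeProd M p h) = algebraMap ℂ MerH (zetaPow m
      (RT.GammaH.hecke M (Subgroup.zpowers (-1)) p (ZMod m) φ (Additive.ofMul γ))) *
        heckeProd M p h := by
  obtain ⟨σ, hσ⟩ := RT.GammaH.admissible_hRep (M := M) (K := Subgroup.zpowers (-1)) (n := p) γ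
  choose c hc using fun i => RT.GammaH.exists_of_mem_img (hσ.2 i)
  have hval : RT.GammaH.hecke M (Subgroup.zpowers (-1)) p (ZMod m) φ (Additive.ofMul γ) =
      ∑ i, φ (Additive.ofMul (c i)) := by
    show RT.GammaH.opOf (RT.GammaH.admissible_hRep (n := p)) (ZMod m) φ (Additive.ofMul γ) = _
    rw [RT.GammaH.opOf_apply_of_isPerm _ _ _ hσ]
    exact Finset.sum_congr rfl fun i _ => by rw [← hc, RT.GammaH.onImg_mapGL]
  rw [hval, zetaPow_finset_sum, heckeProd_apply, map_prod, map_prod]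
  conv_rhs => rw [← Equiv.prod_comp (Equiv.ofBijective σ hσ.1)
    (fun i => actGL (hRep M p i) (det_hRep_pos i) h), ← Finset.prod_mul_distrib]
  refine Finset.prod_congr rfl fun i _ => ?_
  have he : hRep M p i * mapGL ℝ (γ : SL(2, ℤ)) =
      mapGL ℝ (c i : SL(2, ℤ)) * hRep M p (σ i) := by
    rw [hc, inv_mul_cancel_right]
  rw [← actGL_mapGL, ← actGL_mul (det_hRep_pos i) (det_mapGL_pos _),
    actGL_congr he _ (det_mul_pos (det_mapGL_pos _) (det_hRep_pos _)),
    actGL_mul (det_mapGL_pos _) (det_hRep_pos _), actGL_mapGL, hφ, map_mul, AlgEquiv.commutes]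
  rfl

/-- The class of `p` in the units modulo `M`. -/
def pU (hpM : ¬ p ∣ M) : (ZMod M)ˣ :=
  ZMod.unitOfCoprime p ((Nat.Prime.coprime_iff_not_dvd hp.out).2 hpM)

instance neZero_prime : NeZero p := ⟨hp.out.ne_zero⟩

theorem hRep_some_smul (j : Fin p) (hj : some j = none → ¬ p ∣ M) (τ : ℍ) :
    hRep M p ⟨some j, hj⟩ • τ = affine 1 (j : ℕ) p τ := by
  apply UpperHalfPlane.ext
  show ((ModularForm.heckeMatrix p (j : ℕ) • τ : ℍ) : ℂ) = _
  rw [coe_smul_of_det_pos (by
    rw [Matrix.GeneralLinearGroup.val_det_apply, ModularForm.val_heckeMatrix hp.out.ne_zero,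
      Matrix.det_fin_two_of]
    simp [hp.out.pos])]
  simp [num, denom, ModularForm.val_heckeMatrix hp.out.ne_zero, ModFun.coe_affine]

theorem heckeDiag_smul (τ : ℍ) : ModularForm.heckeDiagMatrix p • τ = scaleH p τ := by
  apply UpperHalfPlane.ext
  rw [coe_smul_of_det_pos (by
    rw [Matrix.GeneralLinearGroup.val_det_apply, ModularForm.val_heckeDiagMatrix hp.out.ne_zero,
      Matrix.det_fin_two_of]
    simp [hp.out.pos])]
  simp [num, denom, ModularForm.val_heckeDiagMatrix hp.out.ne_zero, ModFun.coe_scaleH]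

/-- Every translate is of the form `f (γ • scaleH p (g • τ))`. -/
theorem exists_hRep_smul (i : HIdx M p) :
    ∃ γ g : SL(2, ℤ), ∀ τ : ℍ, hRep M p i • τ = γ • scaleH p (g • τ) := by
  rcases i with ⟨_ | j, hi⟩
  · refine ⟨RT.GammaH.gamma0Elt (pU (hi rfl))⁻¹, 1, fun τ => ?_⟩
    show (mapGL ℝ (RT.GammaH.gamma0Elt (pU (hi rfl))⁻¹) * ModularForm.heckeDiagMatrix p) • τ = _
    rw [mul_smul, heckeDiag_smul, one_smul]
    rfl
  · refine ⟨ModularGroup.S, ModularGroup.S * ModularGroup.T ^ (j : ℤ), fun τ => ?_⟩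
    rw [hRep_some_smul]
    apply UpperHalfPlane.ext
    simp only [ModFun.coe_affine, mul_smul, UpperHalfPlane.modular_S_smul,
      ModFun.coe_scaleH, modular_T_zpow_smul, coe_vadd]
    have h : (τ : ℂ) + j ≠ 0 := fun h0 => by
      have h1 := congrArg Complex.im h0
      simp at h1
      exact absurd h1 τ.im_pos.ne'
    have hp0 : (p : ℂ) ≠ 0 := Nat.cast_ne_zero.mpr hp.out.ne_zero
    push_cast
    rw [add_comm] at h
    field_simp
    ring

variable [NeZero M]

theorem meroAtInfty_translate (a : Hol1 M) (i : HIdx M p) (g : SL(2, ℤ)) :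
    MeroAtInfty fun τ => (a : ℍ → ℂ) (hRep M p i • g • τ) := by
  obtain ⟨γ, g', h⟩ := exists_hRep_smul i
  obtain ⟨δ, x, b, e, _, _, -, -, h'⟩ := ModFun.exists_scaleH_smul p (g' * g)
  have : NeZero (e * M) := ⟨mul_ne_zero (NeZero.ne e) (NeZero.ne M)⟩
  have hN : ∀ τ : ℍ, scaleH M (affine x b (e * M) τ) = affine x b e τ := fun τ => by
    apply UpperHalfPlane.ext
    have hM : (M : ℂ) ≠ 0 := Nat.cast_ne_zero.mpr (NeZero.ne M)
    rw [ModFun.coe_scaleH, ModFun.coe_affine, ModFun.coe_affine]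
    push_cast
    field_simp
  have he : (fun τ => (a : ℍ → ℂ) (hRep M p i • g • τ)) =
      fun τ => (fun τ => (a : ℍ → ℂ) ((γ * δ) • scaleH M τ)) (affine x b (e * M) τ) := by
    funext τ
    simp only
    rw [h, ← mul_smul g' g τ, h', hN, mul_smul]
  rw [he]
  exact (ModFun.comp_affine_mem x b (e * M)
    (GaloisReps.comp_scaleH_mem_CuspAlg ⟨_, ModFun.comp_SL_mem_CuspAlg (N := M) a.2 (γ * δ)⟩)).2.2

variable [GoodLevel M]

theorem exists_heckeHol (a : Hol1 M) : ∃ P : Hol1 M,
    (∀ τ, (P : ℍ → ℂ) τ = ∏ i : HIdx M p, (a : ℍ → ℂ) (hRep M p i • τ)) ∧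
    e11 M (toF1C M P) = heckeProd M p (e11 M (toF1C M a)) := by
  classical
  set H : HolH := ∏ i : HIdx M p, actGLHom (hRep M p i) (det_hRep_pos i) (hol1ToHolH M a) with hH
  have hval : ∀ τ : ℍ, (H : ℍ → ℂ) τ = ∏ i : HIdx M p, (a : ℍ → ℂ) (hRep M p i • τ) := by
    intro τ
    rw [hH, SubmonoidClass.coe_finsetProd, Finset.prod_apply]
    rfl
  have hprod : algebraMap HolH MerH H = heckeProd M p (e11 M (toF1C M a)) := by
    rw [hH, map_prod, heckeProd_apply, e11_toF1C]
    exact Finset.prod_congr rfl fun i _ => (actGL_algebraMap _ _ _).symm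
  have hinv : ∀ γ : G1 M, actHol (γ : SL(2, ℤ)) H = H := fun γ => by
    apply IsFractionRing.injective HolH MerH
    rw [← actMer_algebraMap, hprod,
      actMer_heckeProd (m := 1) (φ := 0) (fun δ => by
        rw [actMer_e11 δ.2, AddMonoidHom.zero_apply, zetaPow_zero, map_one, one_mul]),
      map_zero, AddMonoidHom.zero_apply, zetaPow_zero, map_one, one_mul]
  have hmem : (H : ℍ → ℂ) ∈ Hol1 M := by
    refine ⟨H.2, fun g hg τ => congrFun (congrArg Subtype.val (hinv ⟨g, hg⟩)) τ, fun g => ?_⟩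
    have : (fun τ => (H : ℍ → ℂ) (g • τ))
        = ∏ i : HIdx M p, fun τ => (a : ℍ → ℂ) (hRep M p i • g • τ) := by
      funext τ
      rw [hval, Finset.prod_apply]
    rw [this]
    exact Finset.prod_induction _ MeroAtInfty (fun _ _ => ModFun.MeroAtInfty.mul)
      (ModFun.MeroAtInfty.of_isBounded ModFun.isBounded_one)
      fun i _ => meroAtInfty_translate a i g
  refine ⟨⟨_, hmem⟩, hval, ?_⟩
  rw [e11_toF1C, ← hprod]
  rfl

/-- `T_p` on holomorphic functions. -/
def heckeHol (p : ℕ) [Fact p.Prime] (a : Hol1 M) : Hol1 M := (exists_heckeHol (p := p) a).choose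

theorem e11_heckeHol (a : Hol1 M) :
    e11 M (toF1C M (heckeHol p a)) = heckeProd M p (e11 M (toF1C M a)) :=
  (exists_heckeHol (p := p) a).choose_spec.2

theorem heckeHol_apply (a : Hol1 M) (τ : ℍ) :
    (heckeHol p a : ℍ → ℂ) τ = ∏ i : HIdx M p, (a : ℍ → ℂ) (hRep M p i • τ) :=
  (exists_heckeHol (p := p) a).choose_spec.1 τ

theorem heckeHol_split (hpM : ¬ p ∣ M) (a : Hol1 M) (τ : ℍ) :
    (heckeHol p a : ℍ → ℂ) τ =
      (dia M (pU hpM) a : ℍ → ℂ) (scaleH p τ) * ∏ j : Fin p, (a : ℍ → ℂ) (affine 1 (j : ℕ) p τ) := by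
  rw [heckeHol_apply]
  refine (Fintype.prod_equiv (Equiv.subtypeUnivEquiv
    (p := fun o : Option (Fin p) => o = none → ¬ p ∣ M) fun _ _ => hpM) _
    (fun o => (a : ℍ → ℂ) (hRep M p ⟨o, fun _ => hpM⟩ • τ)) fun _ => rfl).trans ?_
  rw [Fintype.prod_option]
  congr 1
  · show (a : ℍ → ℂ) ((mapGL ℝ (RT.GammaH.gamma0Elt (pU hpM)⁻¹) *
        ModularForm.heckeDiagMatrix p) • τ) = _
    rw [mul_smul, heckeDiag_smul]
    refine comp_gamma0_eq_dia a (RT.GammaH.gamma0Elt_mem _) _ (Or.inl ?_) _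
    rw [gamma0Elt_lowerRight, inv_inv]
  · exact Finset.prod_congr rfl fun j _ => congrArg _ (hRep_some_smul j _ τ)

/-- The `p`-th root of unity of the expansion. -/
def zetaC (p : ℕ) [NeZero p] : ℂˣ := affineRoot 1 p

theorem affineRoot_natCast (j : ℕ) : affineRoot (j : ℤ) p = zetaC p ^ j := by
  refine Units.ext ?_
  simp only [zetaC, affineRoot, Units.val_mk0, Units.val_pow_eq_pow_val, ← Complex.exp_nat_mul]
  congr 1
  push_cast
  ring

theorem qExp1_heckeHol (hpM : ¬ p ∣ M) (a : Hol1 M) :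
    qExpand ℂ p (qExp1 M (heckeHol p a)) = qExpand ℂ (p * p) (qExp1 M (dia M (pU hpM) a)) *
      ∏ j : Fin p, ModFun.twist (zetaC p ^ (j : ℕ)) (qExp1 M a) := by
  have : NeZero (p * p) := ⟨mul_ne_zero hp.out.ne_zero hp.out.ne_zero⟩
  let inc : Hol1 M → CuspAlg 1 := fun f => Subalgebra.inclusion (Hol1_le_CuspAlg_one (M := M)) f
  have h1 : ∀ τ : ℍ, affine p 0 p τ = τ := fun τ => by
    apply UpperHalfPlane.ext
    have hp0 : (p : ℂ) ≠ 0 := Nat.cast_ne_zero.mpr hp.out.ne_zero
    rw [ModFun.coe_affine]; field_simp; simp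
  have h2 : ∀ τ : ℍ, affine (p * p) 0 p τ = scaleH p τ := fun τ => by
    apply UpperHalfPlane.ext
    have hp0 : (p : ℂ) ≠ 0 := Nat.cast_ne_zero.mpr hp.out.ne_zero
    rw [ModFun.coe_affine, ModFun.coe_scaleH]; push_cast; field_simp; simp
  have key : ModFun.compAffine p 0 p (inc (heckeHol p a)) =
      ModFun.compAffine (p * p) 0 p (inc (dia M (pU hpM) a)) *
        ∏ j : Fin p, ModFun.compAffine 1 ((j : ℕ) : ℤ) p (inc a) := by
    refine Subtype.ext (funext fun τ => ?_)
    rw [Subalgebra.coe_mul, Pi.mul_apply, SubmonoidClass.coe_finsetProd, Finset.prod_apply]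
    simp only [ModFun.compAffine_apply, h1, h2]
    exact heckeHol_split hpM a τ
  have h := congrArg (ModFun.laurentExp p) key
  rw [map_mul, map_prod] at h
  simp only [ModFun.laurentExp_compAffine, ModFun.affineRoot_zero, ModFun.twist_one,
    affineRoot_natCast, qExpand_one_apply] at h
  exact h

variable (M p)

/-- The value of `T_p` on a function. -/
theorem exists_heckeC (x : F1C M) : ∃ y : F1C M, e11 M y = heckeProd M p (e11 M x) ∧
    ∀ hpM : ¬ p ∣ M, qExpand ℂ p (y : LaurentSeries ℂ) =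
      qExpand ℂ (p * p) (diaC M (pU hpM) x : LaurentSeries ℂ) *
        ∏ j : Fin p, ModFun.twist (zetaC p ^ (j : ℕ)) (x : LaurentSeries ℂ) := by
  obtain ⟨a, b, -, rfl⟩ := exists_div_eq1 x
  refine ⟨toF1C M (heckeHol p a) / toF1C M (heckeHol p b),
    by simp only [map_div₀, e11_heckeHol, heckeProd_div], fun hpM => ?_⟩
  simp only [map_div₀, IntermediateField.coe_div, coe_toF1C, diaC_toF1C]
  rw [qExp1_heckeHol hpM, qExp1_heckeHol hpM, Finset.prod_div_distrib, div_mul_div_comm]

/-- `T_p` on the complex field. -/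
def heckeC : F1C M →* F1C M where
  toFun x := (exists_heckeC M p x).choose
  map_one' := (e11 M).toRingHom.injective (by
    show e11 M _ = e11 M 1
    rw [(exists_heckeC M p 1).choose_spec.1, map_one, map_one])
  map_mul' x y := (e11 M).toRingHom.injective (by
    show e11 M _ = e11 M (_ * _)
    rw [(exists_heckeC M p (x * y)).choose_spec.1, map_mul, map_mul, map_mul,
      (exists_heckeC M p x).choose_spec.1, (exists_heckeC M p y).choose_spec.1])

variable {M p}

theorem e11_heckeC (x : F1C M) : e11 M (heckeC M p x) = heckeProd M p (e11 M x) :=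
  (exists_heckeC M p x).choose_spec.1

theorem coe_heckeC (hpM : ¬ p ∣ M) (x : F1C M) :
    qExpand ℂ p (heckeC M p x : LaurentSeries ℂ) =
      qExpand ℂ (p * p) (diaC M (pU hpM) x : LaurentSeries ℂ) *
        ∏ j : Fin p, ModFun.twist (zetaC p ^ (j : ℕ)) (x : LaurentSeries ℂ) :=
  (exists_heckeC M p x).choose_spec.2 hpM

end Fermat.Agent.DeligneSerre.Curve
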