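import Fermat.Agent.DeligneSerre.Curve.Kummer

/-!
# Recognising divisors divisible by `m` from roots on the upper half plane
-/

set_option autoImplicit false
set_option linter.unusedSectionVars false

noncomputable section

open UpperHalfPlane hiding I
open AlgebraicCurve
open Fermat.Agent.JacTorsion (zetaPow zetaPow_zero divGrp powGrp
  exists_const_mul meroAtInfty_of_pow)
open Fermat.Agent.ModFun (MerH HolH actMer actHol actMer_algebraMap)
open scoped MatrixGroups Manifold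

namespace Fermat.Agent.DeligneSerre.Curve

/-- Shortcut: the search through `LaurentSeries` is slow. -/
local instance instAlgebraFCxCurveRootCriterion (F₀ : IntermediateField ℚ (LaurentSeries ℚ)) :
    Algebra ℂ (JacTorsion.FCx F₀) := inferInstance

/-- Shortcut: the search through `LaurentSeries` is slow. -/
local instance instAlgebraFQCurveRootCriterion (F₀ : IntermediateField ℚ (LaurentSeries ℚ)) :
    Algebra (AlgebraicClosure ℚ) (JacTorsion.FQ F₀) := inferInstance

/-- Shortcut: the search through `LaurentSeries` is slow. -/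
local instance instAlgebraF1CCurveRootCriterion (M : ℕ) [NeZero M] [GoodLevel M] :
    Algebra ℂ (F1C M) := inferInstance

variable {M : ℕ} [NeZero M] [GoodLevel M] {m : ℕ} [NeZero m]

/-- A meromorphic root of a holomorphic function is holomorphic. -/
theorem exists_holH_of_pow {C : HolH} (hC : C ≠ 0) {Z : MerH}
    (hZ : Z ^ m = algebraMap HolH MerH C) : ∃ H : HolH, algebraMap HolH MerH H = Z := by
  have hC' : algebraMap HolH MerH C ≠ 0 :=
    (map_ne_zero_iff _ (IsFractionRing.injective HolH MerH)).mpr hC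
  have hZ0 : Z ≠ 0 := fun h => hC' (by rw [← hZ, h, zero_pow (NeZero.ne m)])
  obtain ⟨G, hGm⟩ := JacTorsion.exists_holH_pow_eq (NeZero.ne m) hC fun τ => by
    rw [← hZ, JacTorsion.ordMer_pow hZ0]
    exact dvd_mul_right _ _
  have hG0 : algebraMap HolH MerH G ≠ 0 := fun h => hC' (by
    rw [← hGm, map_pow, h, zero_pow (NeZero.ne m)])
  obtain ⟨c, -, hc⟩ := exists_const_mul (NeZero.ne m) hG0 (h' := Z)
    (by rw [hZ, ← map_pow, hGm])
  refine ⟨algebraMap ℂ HolH c * G, ?_⟩
  rw [map_mul, hc, ← IsScalarTower.algebraMap_apply]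

/-- An invariant root lies in the field. -/
theorem exists_pow_eq_of_invariant {x : F1C M} (hx : x ≠ 0) {h : MerH} (hh : h ^ m = e11 M x)
    (hinv : ∀ γ : G1 M, actMer (γ : SL(2, ℤ)) h = h) : ∃ z : F1C M, z ^ m = x := by
  obtain ⟨k, hk⟩ : ∃ k, m = k + 1 := ⟨m - 1, by have := NeZero.ne m; omega⟩
  obtain ⟨a, b, hb, rfl⟩ := exists_div_eq1 x
  have ha : a ≠ 0 := fun h => hx (by rw [h, map_zero, zero_div])
  have hbF : toF1C M b ≠ 0 := fun h => hb (toF1C_injective (h.trans (map_zero (toF1C M)).symm))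
  set C : Hol1 M := a * b ^ k with hC
  have hC0 : hol1ToHolH M C ≠ 0 := hol1ToHolH_ne_zero (mul_ne_zero ha (pow_ne_zero _ hb))
  have hCe : e11 M (toF1C M a / toF1C M b) * e11 M (toF1C M b) ^ m =
      algebraMap HolH MerH (hol1ToHolH M C) := by
    rw [← e11_toF1C, hC, map_mul (toF1C M), map_pow (toF1C M), ← map_pow, ← map_mul, hk,
      pow_succ', ← mul_assoc, div_mul_cancel₀ _ hbF]
  obtain ⟨H, hH⟩ := exists_holH_of_pow hC0 (Z := h * e11 M (toF1C M b))
    (by rw [mul_pow, hh, hCe])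
  have hHinv : ∀ γ : G1 M, actHol (γ : SL(2, ℤ)) H = H := fun γ => by
    apply IsFractionRing.injective HolH MerH
    rw [← actMer_algebraMap, hH, map_mul, hinv, actMer_e11 γ.2]
  have hHm : H ^ m = hol1ToHolH M C := IsFractionRing.injective HolH MerH (by
    rw [map_pow, hH, mul_pow, hh, hCe])
  have hmem : (H : ℍ → ℂ) ∈ Hol1 M := by
    refine ⟨H.2, fun g hg τ => congrFun (congrArg Subtype.val (hHinv ⟨g, hg⟩)) τ, fun g => ?_⟩
    refine meroAtInfty_of_pow (m := m) ?_
    have : (fun τ => (H : ℍ → ℂ) (g • τ)) ^ m = fun τ => (C : ℍ → ℂ) (g • τ) := by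
      funext τ
      exact congrFun (congrArg Subtype.val hHm) (g • τ)
    rw [this]
    exact C.2.2.2 g
  refine ⟨toF1C M ⟨_, hmem⟩ / toF1C M b, (e11 M).toRingHom.injective ?_⟩
  show e11 M ((toF1C M ⟨_, hmem⟩ / toF1C M b) ^ m) = e11 M _
  have hb' : e11 M (toF1C M b) ≠ 0 := (map_ne_zero (e11 M)).mpr hbF
  have hHH : hol1ToHolH M ⟨_, hmem⟩ = H := rfl
  rw [← hh, map_pow, map_div₀, e11_toF1C, hHH, hH, mul_div_cancel_right₀ _ hb']

/-- A function with a root of elliptic-parabolic monodromy has divisor divisible by `m`. -/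
theorem mem_divGrp_of_root {u : (F1C M)ˣ} {h : MerH} (hh : h ^ m = e11 M (u : F1C M))
    {φ : Additive (G1 M) →+ ZMod m} (hφ : φ ∈ Gamma0.ellParHoms (G1 M) (ZMod m))
    (hmon : ∀ γ : G1 M,
      actMer (γ : SL(2, ℤ)) h = algebraMap ℂ MerH (zetaPow m (φ (Additive.ofMul γ))) * h) :
    ∃ hu : u ∈ divGrp ℂ (F1C M) m, ((uniformisation1 M).rootChar m ⟨u, hu⟩).1 = φ := by
  obtain ⟨g, hg⟩ := (uniformisation1 M).exists_rootChar_eq (m := m) ⟨φ, hφ⟩
  obtain ⟨h', hh'⟩ := (uniformisation1 M).exists_mer_root g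
  have hg0 := Units.ne_zero (g : (F1C M)ˣ)
  have h'0 : h' ≠ 0 := JacTorsion.root_ne_zero hg0 hh'
  have hgφ : ((uniformisation1 M).rootChar m g).1 = φ := congrArg Subtype.val hg
  obtain ⟨z, hz⟩ := exists_pow_eq_of_invariant (m := m)
    (div_ne_zero (Units.ne_zero u) hg0) (h := h / h') (by rw [div_pow, hh, hh', map_div₀])
    (fun γ => by
      rw [map_div₀, hmon, (uniformisation1 M).rootChar_spec g h' hh' γ, hgφ]
      exact mul_div_mul_left _ _ (by
        simpa using (JacTorsion.zetaPow_ne_zero (m := m) (φ (Additive.ofMul γ)))))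
  have hz0 : z ≠ 0 := fun h0 => div_ne_zero (Units.ne_zero u) hg0
    (by rw [← hz, h0, zero_pow (NeZero.ne m)])
  have hu : u ∈ divGrp ℂ (F1C M) m := fun P => by
    have he : (u : F1C M) = ((g : (F1C M)ˣ) : F1C M) * z ^ m := by
      rw [hz, mul_div_cancel₀ _ hg0]
    rw [he, P.ord_mul hg0 (pow_ne_zero _ hz0), FF.ord_pow]
    exact dvd_add (g.2 P) (dvd_mul_right _ _)
  exact ⟨hu, (uniformisation1 M).rootChar_eq_of_isRootChar ⟨u, hu⟩ (JacTorsion.isRootChar_of_root (Units.ne_zero u) hh hmon)⟩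

/-- The same over `ℚ̄`. -/
theorem mem_divGrp_of_rootQ {u : (JacTorsion.FQ (F1 M))ˣ} {h : MerH}
    (hh : h ^ m = e11 M ((JacTorsion.extQ (F1 M)).emb (u : JacTorsion.FQ (F1 M))))
    {φ : Additive (G1 M) →+ ZMod m} (hφ : φ ∈ Gamma0.ellParHoms (G1 M) (ZMod m))
    (hmon : ∀ γ : G1 M,
      actMer (γ : SL(2, ℤ)) h = algebraMap ℂ MerH (zetaPow m (φ (Additive.ofMul γ))) * h) :
    ∃ hu : u ∈ divGrp (AlgebraicClosure ℚ) (JacTorsion.FQ (F1 M)) m,
      (kummerChar1 M m (QuotientGroup.mk ⟨u, hu⟩)).toAdd.1 = φ := by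
  obtain ⟨huC, hchar⟩ := mem_divGrp_of_root
    (u := Units.map (JacTorsion.extQ (F1 M)).emb.toMonoidHom u) hh hφ hmon
  have hu : u ∈ divGrp (AlgebraicClosure ℚ) (JacTorsion.FQ (F1 M)) m := fun P => by
    obtain ⟨P', hP'⟩ := JacTorsion.exists_place_over (JacTorsion.extQ (F1 M)) P
      (JacTorsion.residueConst_of_isFunctionField P)
    rw [← hP']
    exact huC P'
  exact ⟨hu, hchar⟩

end Fermat.Agent.DeligneSerre.Curve
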