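import Fermat.Agent.DeligneSerre.Curve.HeckeRat
import Fermat.Agent.DeligneSerre.Curve.RootCriterion

/-!
# Hecke and diamond operators on the Kummer group of the field of `±Γ₁(M)`

Under `kummerChar1` they become the coset operators on homomorphisms.
-/

set_option autoImplicit false
set_option linter.unusedSectionVars false

noncomputable section

open UpperHalfPlane hiding I
open ModularCurve AlgebraicCurve
open Fermat.Agent.JacTorsion (zetaPow divGrp powGrp KummerGrp actMer_mul)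
open Fermat.Agent.ModFun (MerH actMer)
open scoped MatrixGroups

namespace Fermat.Agent.DeligneSerre.Curve

local notation "Qb" => AlgebraicClosure ℚ
local notation "KK" => Subgroup.zpowers (-1 : (ZMod _)ˣ)

variable {M : ℕ} [NeZero M] [GoodLevel M] {p : ℕ} [hp : Fact p.Prime] {m : ℕ} [NeZero m]

/-- The homomorphism attached to a function with divisor divisible by `m`. -/
def charQ (m : ℕ) [NeZero m] (f : divGrp Qb (F1Q M) m) : Additive (G1 M) →+ ZMod m :=
  (kummerChar1 M m (QuotientGroup.mk f)).toAdd.1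

theorem charQ_mem (f : divGrp Qb (F1Q M) m) : charQ m f ∈ Gamma0.ellParHoms (G1 M) (ZMod m) :=
  (kummerChar1 M m (QuotientGroup.mk f)).toAdd.2

theorem charQ_mul (f g : divGrp Qb (F1Q M) m) : charQ m (f * g) = charQ m f + charQ m g := by
  simp [charQ, QuotientGroup.mk_mul, map_mul]

theorem mem_powGrp_iff_charQ (f : divGrp Qb (F1Q M) m) :
    f ∈ powGrp Qb (F1Q M) m ↔ charQ m f = 0 := by
  rw [← QuotientGroup.eq_one_iff, ← (kummerChar1_bijective M m).injective.eq_iff, map_one,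
    ← toAdd_eq_zero (x := kummerChar1 M m (QuotientGroup.mk f))]
  exact ⟨fun h => congrArg Subtype.val h, fun h => Subtype.ext h⟩

theorem exists_charQ_eq (φ : Gamma0.ellParHoms (G1 M) (ZMod m)) :
    ∃ f : divGrp Qb (F1Q M) m, charQ m f = φ.1 := by
  obtain ⟨x, hx⟩ := (kummerChar1_bijective M m).surjective (Multiplicative.ofAdd φ)
  obtain ⟨f, rfl⟩ := QuotientGroup.mk_surjective x
  exact ⟨f, by rw [charQ, hx]; rfl⟩

/-- `T_p` on divisible functions. -/
theorem exists_heckeDiv (hpM : ¬ p ∣ M) (f : divGrp Qb (F1Q M) m) :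
    ∃ g : divGrp Qb (F1Q M) m, ((g : (F1Q M)ˣ) : F1Q M) = heckeQ hpM ((f : (F1Q M)ˣ) : F1Q M) ∧
      charQ m g = RT.GammaH.hecke M KK p (ZMod m) (charQ m f) := by
  obtain ⟨h, hh⟩ := exists_mer_root1 M m f
  obtain ⟨hu, hchar⟩ := mem_divGrp_of_rootQ (M := M) (m := m)
    (u := Units.map (heckeQ hpM) (f : (F1Q M)ˣ)) (h := heckeProd M p h)
    (by
      rw [← map_pow, hh, ← e11_heckeC]
      exact congrArg _ (toC1_heckeQ hpM _).symm)
    (φ := RT.GammaH.hecke M KK p (ZMod m) (charQ m f)) (hecke_mem_ellParHoms (charQ_mem f))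
    (fun γ => actMer_heckeProd (fun δ => kummerChar1_spec M m f h hh δ) γ)
  exact ⟨⟨_, hu⟩, rfl, hchar⟩

/-- The diamond on divisible functions. -/
theorem exists_diaDiv (u : (ZMod M)ˣ) (f : divGrp Qb (F1Q M) m) :
    ∃ g : divGrp Qb (F1Q M) m, ((g : (F1Q M)ˣ) : F1Q M) = diaQ M u ((f : (F1Q M)ˣ) : F1Q M) ∧
      charQ m g = RT.GammaH.diamond M KK (ZMod m) u (charQ m f) := by
  obtain ⟨h, hh⟩ := exists_mer_root1 M m f
  set d := diaRep u with hd
  have hadm : RT.GammaH.Admissible (G1 M) (G1 M)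
      fun _ : Unit => (Matrix.SpecialLinearGroup.mapGL ℝ d : RT.GammaH.GLR) := fun γ =>
    ⟨id, Function.bijective_id, fun _ => by
      simp only [← map_inv, ← map_mul]
      exact RT.GammaH.mapGL_mem_img.2 (RT.GammaH.gammaH_conj (diaRep_mem u) γ.2)⟩
  have h00 : ((d 0 0 : ℤ) : ZMod M) = ((1 : (ZMod M)ˣ) : ZMod M) * ((u⁻¹ : (ZMod M)ˣ) : ZMod M) := by
    have hdet : ((d 0 0 : ℤ) : ZMod M) * d 1 1 - d 0 1 * d 1 0 = 1 := by
      exact_mod_cast congrArg (Int.cast : ℤ → ZMod M) (Gamma0.det_eq d)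
    rw [hd, CongruenceSubgroup.Gamma0_mem.1 (diaRep_mem u), mul_zero, sub_zero,
      diaRep_lowerRight] at hdet
    rw [hd, Units.val_one, one_mul]
    exact (Units.inv_eq_of_mul_eq_one_left hdet).symm
  have hval : ∀ γ : G1 M, RT.GammaH.diamond M KK (ZMod m) u (charQ m f) (Additive.ofMul γ) =
      charQ m f (Additive.ofMul ⟨d * γ * d⁻¹, RT.GammaH.gammaH_conj (diaRep_mem u) γ.2⟩) := fun γ => by
    rw [RT.GammaH.diamond_eq_opOf (ZMod m) u (diaRep_mem u) (one_mem _) h00 hadm,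
      RT.GammaH.opOf_apply_of_isPerm _ _ _ (σ := id) ⟨Function.bijective_id, fun _ => by
        simp only [← map_inv, ← map_mul]
        exact RT.GammaH.mapGL_mem_img.2 (RT.GammaH.gammaH_conj (diaRep_mem u) γ.2)⟩, Fintype.sum_unique]
    simp only [← map_inv, ← map_mul]
    exact RT.GammaH.onImg_mapGL _ ⟨_, RT.GammaH.gammaH_conj (diaRep_mem u) γ.2⟩
  obtain ⟨hu, hchar⟩ := mem_divGrp_of_rootQ (M := M) (m := m)
    (u := Units.map (diaQ M u).toMonoidHom (f : (F1Q M)ˣ)) (h := actMer d h)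
    (by
      rw [← map_pow, hh, ← e11_diaC]
      exact congrArg _ (toC1_diaQ u _).symm)
    (φ := RT.GammaH.diamond M KK (ZMod m) u (charQ m f)) (diamond_mem_ellParHoms u (charQ_mem f))
    (fun γ => by
      have h1 := congrArg (actMer d)
        (kummerChar1_spec M m f h hh ⟨d * γ * d⁻¹, RT.GammaH.gammaH_conj (diaRep_mem u) γ.2⟩)
      rw [map_mul, AlgEquiv.commutes, ← actMer_mul, inv_mul_cancel_right, actMer_mul] at h1
      rw [h1, hval]
      rfl)
  exact ⟨⟨_, hu⟩, rfl, hchar⟩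

end Fermat.Agent.DeligneSerre.Curve
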