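import Fermat.Agent.DeligneSerre.Curve.HeckeFun

/-!
# The Hecke operator at a good prime on the field of `±Γ₁(M)` over `ℚ̄`
-/

set_option autoImplicit false
set_option linter.unusedSectionVars false

noncomputable section

open ModularCurve AlgebraicCurve
open scoped MatrixGroups IntermediateField

namespace Fermat.Agent.DeligneSerre.Curve

local notation "Qb" => AlgebraicClosure ℚ
local notation "ιQ" => JacTorsion.ιQ

variable {M : ℕ} [NeZero M] [GoodLevel M] {p : ℕ} [hp : Fact p.Prime]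

theorem zetaC_pow (p : ℕ) [NeZero p] : zetaC p ^ p = 1 := by
  refine Units.ext ?_
  rw [Units.val_pow_eq_pow_val, zetaC, ModFun.affineRoot, Units.val_mk0, ← Complex.exp_nat_mul,
    Units.val_one]
  have hp : (p : ℂ) ≠ 0 := Nat.cast_ne_zero.mpr (NeZero.ne p)
  rw [show (p : ℂ) * (2 * Real.pi * Complex.I * ((1 : ℤ) : ℂ) / p) = 2 * Real.pi * Complex.I by
    push_cast; field_simp, Complex.exp_two_pi_mul_I]

theorem exists_zetaQ (p : ℕ) [NeZero p] :
    ∃ ζ : Qbˣ, ζ ^ p = 1 ∧ ιQ (ζ : Qb) = (zetaC p : ℂ) := by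
  have hc : IsAlgebraic ℚ ((zetaC p : ℂˣ) : ℂ) := by
    refine (IsIntegral.of_pow (Nat.pos_of_ne_zero (NeZero.ne p)) ?_).isAlgebraic
    rw [← Units.val_pow_eq_pow_val, zetaC_pow, Units.val_one]
    exact isIntegral_one
  obtain ⟨z, hz⟩ := JacTorsion.mem_range_ιQ hc
  have hz0 : z ≠ 0 := fun h => (zetaC p).ne_zero (by rw [← hz, h, map_zero])
  refine ⟨Units.mk0 z hz0, Units.ext (RingHom.injective ιQ ?_), hz⟩
  rw [Units.val_pow_eq_pow_val, map_pow, Units.val_mk0, hz, ← Units.val_pow_eq_pow_val, zetaC_pow,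
    Units.val_one, Units.val_one, map_one]

/-- The root of unity in `ℚ̄`. -/
def zetaQ (p : ℕ) [NeZero p] : Qbˣ := (exists_zetaQ p).choose

theorem zetaQ_pow (p : ℕ) [NeZero p] : zetaQ p ^ p = 1 := (exists_zetaQ p).choose_spec.1

theorem ιQ_zetaQ (p : ℕ) [NeZero p] : ιQ (zetaQ p : Qb) = (zetaC p : ℂ) :=
  (exists_zetaQ p).choose_spec.2

theorem coeffMap_twist {K L : Type*} [Field K] [Field L] (f : K →+* L) (u : Kˣ)
    (x : LaurentSeries K) :
    coeffMap f (ModFun.twist u x) = ModFun.twist (Units.map f.toMonoidHom u) (coeffMap f x) := by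
  ext k
  rw [coeffMap_coeff, ModFun.coeff_twist, ModFun.coeff_twist, map_mul, ← map_zpow, coeffMap_coeff]
  rfl

theorem coeffMap_injective' {K L : Type*} [Field K] [CommRing L] [Nontrivial L] (f : K →+* L) :
    Function.Injective (coeffMap f) := fun x y h =>
  HahnSeries.ext (funext fun k => f.injective (by
    simpa using congrArg (fun z => HahnSeries.coeff z k) h))

/-- The expansion of `T_p x` at infinity, in `q ^ (1 / p)`. -/
def heckeSeries (hpM : ¬ p ∣ M) (x : F1Q M) : LaurentSeries Qb :=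
  qExpand Qb (p * p) (diaQ M (pU hpM) x : LaurentSeries Qb) *
    ∏ j : Fin p, ModFun.twist (zetaQ p ^ (j : ℕ)) (x : LaurentSeries Qb)

theorem exists_heckeQ (hpM : ¬ p ∣ M) (x : F1Q M) : ∃ y : F1Q M,
    toC1 M y = heckeC M p (toC1 M x) ∧
      qExpand Qb p (y : LaurentSeries Qb) = heckeSeries hpM x := by
  set z := heckeC M p (toC1 M x) with hz
  set R := heckeSeries hpM x with hR
  have hRz : coeffMap ιQ R = qExpand ℂ p (z : LaurentSeries ℂ) := by
    rw [hR, heckeSeries, hz, coe_heckeC hpM, map_mul, map_prod, coeffMap_qExpand, ← coe_toC1,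
      toC1_diaQ]
    congr 1
    refine Finset.prod_congr rfl fun j _ => ?_
    rw [coeffMap_twist, coe_toC1, map_pow]
    refine congrArg (fun t : ℂˣ => ModFun.twist (t ^ (j : ℕ)) _) ?_
    exact Units.ext (ιQ_zetaQ p)
  have hc : ∀ n : ℤ, (z : LaurentSeries ℂ).coeff n = ιQ (R.coeff ((p : ℤ) * n)) := fun n => by
    rw [← coeffMap_coeff, hRz, qExpand_coeff_mul]
  let Y : LaurentSeries Qb :=
    ⟨fun n => R.coeff ((p : ℤ) * n), (z : LaurentSeries ℂ).isPWO_support.mono fun n hn => by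
      simp only [Function.mem_support, HahnSeries.mem_support, ne_eq] at hn ⊢
      rw [hc, map_eq_zero]
      exact hn⟩
  have hY : coeffMap ιQ Y = (z : LaurentSeries ℂ) := HahnSeries.ext (funext fun n => (hc n).symm)
  have hmem : Y ∈ F1Q M := JacTorsion.mem_of_coeffMap_mem_cExt (ι := ιQ) (by
    rw [JacTorsion.cExt_laurentBaseChange, hY]; exact z.2)
  refine ⟨⟨Y, hmem⟩, Subtype.ext hY, coeffMap_injective' ιQ ?_⟩
  rw [coeffMap_qExpand, hRz]
  exact congrArg _ hY

/-- `T_p` on the field over `ℚ̄`. -/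
def heckeQ (hpM : ¬ p ∣ M) : F1Q M →* F1Q M where
  toFun x := (exists_heckeQ hpM x).choose
  map_one' := toC1_injective (by rw [(exists_heckeQ hpM 1).choose_spec.1]; simp)
  map_mul' x y := toC1_injective (by
    rw [(exists_heckeQ hpM (x * y)).choose_spec.1, map_mul, map_mul, map_mul,
      (exists_heckeQ hpM x).choose_spec.1, (exists_heckeQ hpM y).choose_spec.1])

theorem toC1_heckeQ (hpM : ¬ p ∣ M) (x : F1Q M) :
    toC1 M (heckeQ hpM x) = heckeC M p (toC1 M x) :=
  (exists_heckeQ hpM x).choose_spec.1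

theorem coe_heckeQ (hpM : ¬ p ∣ M) (x : F1Q M) :
    qExpand Qb p (heckeQ hpM x : LaurentSeries Qb) = heckeSeries hpM x :=
  (exists_heckeQ hpM x).choose_spec.2

theorem heckeQ_ne_zero (hpM : ¬ p ∣ M) {x : F1Q M} (hx : x ≠ 0) : heckeQ hpM x ≠ 0 :=
  ((isUnit_iff_ne_zero.2 hx).map (heckeQ hpM)).ne_zero

end Fermat.Agent.DeligneSerre.Curve
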