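import Fermat.Agent.ModFun.Degree
import Fermat.Agent.RT.GammaH.Hecke

/-!
# Holomorphic functions for `±Γ₁(M)` and the diamond automorphisms
-/

set_option autoImplicit false

noncomputable section

open UpperHalfPlane hiding I
open Function Filter Complex CongruenceSubgroup
open Fermat.Agent.ModFun
open scoped Manifold MatrixGroups Real Topology

namespace Fermat.Agent.DeligneSerre.Curve


variable {M : ℕ}

/-- `±Γ₁(M)`. -/
abbrev G1 (M : ℕ) : Subgroup SL(2, ℤ) :=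
  RT.GammaH.gammaH M (Subgroup.zpowers (-1))

theorem mem_G1_iff {g : SL(2, ℤ)} :
    g ∈ G1 M ↔ (g 1 0 : ZMod M) = 0 ∧ ((g 1 1 : ZMod M) = 1 ∨ (g 1 1 : ZMod M) = -1) := by
  have key : ∀ e : ZMod M, (g 1 0 : ZMod M) = 0 → e * e = 1 →
      ((g 0 0 : ZMod M) = e ↔ (g 1 1 : ZMod M) = e) := by
    intro e h0 he
    have hd : (g 0 0 : ZMod M) * g 1 1 - g 0 1 * g 1 0 = 1 := by
      exact_mod_cast congrArg (Int.cast : ℤ → ZMod M) (Gamma0.det_eq g)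
    rw [h0, mul_zero, sub_zero] at hd
    constructor
    · intro h
      rw [h] at hd
      calc (g 1 1 : ZMod M) = e * e * g 1 1 := by rw [he, one_mul]
        _ = e := by rw [mul_assoc, hd, mul_one]
    · intro h
      rw [h] at hd
      calc (g 0 0 : ZMod M) = g 0 0 * (e * e) := by rw [he, mul_one]
        _ = e := by rw [← mul_assoc, hd, one_mul]
  rw [RT.GammaH.mem_gammaH]
  refine and_congr_right fun h0 => ⟨?_, ?_⟩
  · rintro ⟨u, hu, hau⟩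
    obtain ⟨k, rfl⟩ := Subgroup.mem_zpowers_iff.1 hu
    rcases Int.even_or_odd k with hk | hk
    · exact Or.inl ((key 1 h0 (one_mul 1)).1 (by simpa [hk.neg_one_zpow] using hau))
    · exact Or.inr ((key (-1) h0 (by ring)).1 (by simpa [hk.neg_one_zpow] using hau))
  · rintro (h | h)
    · exact ⟨1, one_mem _, by simpa using (key 1 h0 (one_mul 1)).2 h⟩
    · exact ⟨-1, Subgroup.mem_zpowers _, by simpa using (key (-1) h0 (by ring)).2 h⟩

theorem G1_le_Gamma0 : G1 M ≤ Gamma0 M := RT.GammaH.gammaH_le_Gamma0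

theorem neg_one_mem_G1 : (-1 : SL(2, ℤ)) ∈ G1 M :=
  RT.GammaH.neg_one_mem_gammaH (Subgroup.mem_zpowers _)

theorem T_mem_G1 : ModularGroup.T ∈ G1 M :=
  mem_G1_iff.2 ⟨by simp [ModularGroup.coe_T], Or.inl (by simp [ModularGroup.coe_T])⟩

instance fact_Gamma_le_G1 : Fact (CongruenceSubgroup.Gamma M ≤ G1 M) :=
  ⟨RT.GammaH.Gamma_le_gammaH⟩

/-- Holomorphic `±Γ₁(M)`-invariant functions, meromorphic at every cusp. -/
abbrev Hol1 (M : ℕ) : Subalgebra ℂ (ℍ → ℂ) := invHol (G1 M)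

theorem Hol_le_Hol1 : Hol M ≤ Hol1 M :=
  fun _ hf => ⟨hf.1, fun g hg => hf.2.1 g (G1_le_Gamma0 hg), hf.2.2⟩

theorem Hol1_le_CuspAlg_one : Hol1 M ≤ CuspAlg 1 := by
  intro f hf
  refine ⟨hf.1, fun τ => ?_, by simpa using hf.2.2 1⟩
  rw [Nat.cast_one, ← modular_T_smul]
  exact hf.2.1 _ T_mem_G1 τ

/-- The expansion of an element of `Hol1 M` at infinity. -/
def qExp1 (M : ℕ) : Hol1 M →ₐ[ℂ] LaurentSeries ℂ :=
  (laurentExp 1).comp (Subalgebra.inclusion (Hol1_le_CuspAlg_one (M := M)))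

theorem qExp1_injective : Function.Injective (qExp1 M) :=
  (laurentExp_injective 1).comp (Subalgebra.inclusion_injective (Hol1_le_CuspAlg_one (M := M)))

theorem qExp1_inclusion [NeZero M] (f : Hol M) :
    qExp1 M (Subalgebra.inclusion Hol_le_Hol1 f) = qExp M f := rfl

theorem hol1_ext {f g : Hol1 M} (H : ∀ τ, (f : ℍ → ℂ) τ = (g : ℍ → ℂ) τ) : f = g :=
  Subtype.ext (funext H)

/-! ### Diamond automorphisms -/

/-- A chosen element of `Γ₀(M)` with lower right entry `u`. -/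
def diaRep (u : (ZMod M)ˣ) : SL(2, ℤ) := RT.GammaH.gamma0Elt u⁻¹

theorem diaRep_mem (u : (ZMod M)ˣ) : diaRep u ∈ Gamma0 M := RT.GammaH.gamma0Elt_mem _

theorem diaRep_lowerRight (u : (ZMod M)ˣ) : (diaRep u 1 1 : ZMod M) = u := by
  rw [diaRep, RT.GammaH.gamma0Elt_lowerRight, inv_inv]

theorem comp_gamma0_mem_Hol1 {f : ℍ → ℂ} (hf : f ∈ Hol1 M) {γ : SL(2, ℤ)}
    (hγ : γ ∈ Gamma0 M) : (fun τ => f (γ • τ)) ∈ Hol1 M := by
  refine ⟨mdifferentiable_comp_SL hf.1 γ, fun g hg τ => ?_, fun g => ?_⟩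
  · have h := hf.2.1 _ (RT.GammaH.gammaH_conj hγ hg) (γ • τ)
    rw [← mul_smul, inv_mul_cancel_right, mul_smul] at h
    exact h
  · simpa only [mul_smul] using hf.2.2 (γ * g)

/-- The diamond automorphism `f ↦ f ∘ γ_u`, `γ_u` with lower right entry `u`. -/
def dia (M : ℕ) (u : (ZMod M)ˣ) : Hol1 M →ₐ[ℂ] Hol1 M where
  toFun f := ⟨_, comp_gamma0_mem_Hol1 f.2 (diaRep_mem u)⟩
  map_one' := rfl
  map_mul' _ _ := rfl
  map_zero' := rfl
  map_add' _ _ := rfl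
  commutes' _ := rfl

@[simp]
theorem dia_apply (u : (ZMod M)ˣ) (f : Hol1 M) (τ : ℍ) :
    (dia M u f : ℍ → ℂ) τ = (f : ℍ → ℂ) (diaRep u • τ) := rfl

theorem gamma0_inv_mul_mem_G1 {γ δ : SL(2, ℤ)} (hγ : γ ∈ Gamma0 M) (hδ : δ ∈ Gamma0 M)
    (h : (γ 1 1 : ZMod M) = δ 1 1 ∨ (γ 1 1 : ZMod M) = -(δ 1 1 : ZMod M)) :
    γ * δ⁻¹ ∈ G1 M := by
  refine mem_G1_iff.2 ⟨Gamma0_mem.1 (mul_mem hγ (inv_mem hδ)), ?_⟩
  have e {a b : SL(2, ℤ)} (ha : a ∈ Gamma0 M) (hb : b ∈ Gamma0 M) :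
      ((a * b) 1 1 : ZMod M) = a 1 1 * b 1 1 := map_mul (Gamma0Map M) ⟨a, ha⟩ ⟨b, hb⟩
  have h1 : (δ 1 1 : ZMod M) * (δ⁻¹) 1 1 = 1 := by rw [← e hδ (inv_mem hδ)]; simp
  rw [e hγ (inv_mem hδ)]
  rcases h with h | h
  · exact Or.inl (by rw [h, h1])
  · exact Or.inr (by rw [h, neg_mul, h1])

/-- `dia` only depends on the lower right entry up to sign. -/
theorem comp_gamma0_eq_dia (f : Hol1 M) {γ : SL(2, ℤ)} (hγ : γ ∈ Gamma0 M) (u : (ZMod M)ˣ)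
    (h : (γ 1 1 : ZMod M) = u ∨ (γ 1 1 : ZMod M) = -(u : ZMod M)) (τ : ℍ) :
    (f : ℍ → ℂ) (γ • τ) = (dia M u f : ℍ → ℂ) τ := by
  rw [dia_apply]
  have h1 := f.2.2.1 _ (gamma0_inv_mul_mem_G1 hγ (diaRep_mem u)
    (by rwa [diaRep_lowerRight])) (diaRep u • τ)
  rwa [← mul_smul, inv_mul_cancel_right] at h1

theorem dia_neg (u : (ZMod M)ˣ) (f : Hol1 M) : dia M (-u) f = dia M u f :=
  hol1_ext fun τ => by
    rw [dia_apply, comp_gamma0_eq_dia f (diaRep_mem (-u)) u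
      (Or.inr (by rw [diaRep_lowerRight]; simp))]

theorem dia_one (f : Hol1 M) : dia M 1 f = f :=
  hol1_ext fun τ => by
    rw [← comp_gamma0_eq_dia f (one_mem _) 1 (Or.inl (by simp)), one_smul]

theorem dia_dia (u v : (ZMod M)ˣ) (f : Hol1 M) : dia M u (dia M v f) = dia M (v * u) f := by
  refine hol1_ext fun τ => ?_
  rw [dia_apply, dia_apply, ← mul_smul]
  refine comp_gamma0_eq_dia f (mul_mem (diaRep_mem v) (diaRep_mem u)) (v * u) (Or.inl ?_) τ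
  have hc : ((diaRep v) 1 0 : ZMod M) = 0 := Gamma0_mem.1 (diaRep_mem v)
  simp [Matrix.mul_apply, Fin.sum_univ_two, hc, diaRep_lowerRight]

theorem dia_inclusion (u : (ZMod M)ˣ) (f : Hol M) :
    dia M u (Subalgebra.inclusion Hol_le_Hol1 f) = Subalgebra.inclusion Hol_le_Hol1 f :=
  hol1_ext fun τ => f.2.2.1 _ (diaRep_mem u) τ

/-- A function fixed by all diamonds is `Γ₀(M)`-invariant. -/
theorem mem_Hol_of_dia_fixed (f : Hol1 M) (hf : ∀ u, dia M u f = f) :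
    (f : ℍ → ℂ) ∈ Hol M := by
  refine ⟨f.2.1, fun g hg τ => ?_, f.2.2.2⟩
  have hd : (g 0 0 : ZMod M) * g 1 1 - g 0 1 * g 1 0 = 1 := by
    exact_mod_cast congrArg (Int.cast : ℤ → ZMod M) (Gamma0.det_eq g)
  rw [Gamma0_mem.1 hg, mul_zero, sub_zero] at hd
  obtain ⟨u, hu⟩ : IsUnit (g 1 1 : ZMod M) := IsUnit.of_mul_eq_one _ ((mul_comm _ _).trans hd)
  rw [comp_gamma0_eq_dia f hg u (Or.inl hu.symm), hf u]

end Fermat.Agent.DeligneSerre.Curve
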