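import Fermat.Agent.DeligneSerre.Curve.KummerRoot
import Fermat.Agent.JacTorsion.DescentEquiv
import Fermat.Agent.Gamma0.Count

/-!
# The Kummer group of the field of `±Γ₁(M)` over `ℚ̄`

`kummerChar1 M m` identifies it with the homomorphisms on `±Γ₁(M)` with values in `ℤ/m` killing
elliptic and parabolic elements.
-/

set_option autoImplicit false
set_option linter.unusedSectionVars false

noncomputable section

open UpperHalfPlane hiding I
open Function Filter Complex CongruenceSubgroup AlgebraicCurve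
open scoped Manifold MatrixGroups WithZero Real IntermediateField Topology ModularForm
open Fermat.Agent.JacTorsion (zetaPow divGrp KummerGrp)
open Fermat.Agent.ModFun (MerH actMer)

namespace Fermat.Agent.DeligneSerre.Curve

/-- Shortcut: the search through `LaurentSeries` is slow. -/
local instance instAlgebraFCxCurveKummer (F₀ : IntermediateField ℚ (LaurentSeries ℚ)) :
    Algebra ℂ (JacTorsion.FCx F₀) := inferInstance

/-- Shortcut: the search through `LaurentSeries` is slow. -/
local instance instAlgebraFQCurveKummer (F₀ : IntermediateField ℚ (LaurentSeries ℚ)) :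
    Algebra (AlgebraicClosure ℚ) (JacTorsion.FQ F₀) := inferInstance

variable (M : ℕ) [NeZero M] [GoodLevel M] (m : ℕ) [NeZero m]

theorem finite_ellParHoms1 : Finite (Gamma0.ellParHoms (G1 M) (ZMod m)) :=
  Nat.finite_of_card_ne_zero (by
    rw [Gamma0.natCard_ellParHoms_of_neg_one_mem (neg_one_mem_G1), Nat.card_zmod]
    exact pow_ne_zero _ (NeZero.ne m))

theorem gal_jBase1 (σ : ℂ ≃ₐ[ℚ] ℂ) :
    JacTorsion.gal (F1 M) σ • jBase1 M ℂ = jBase1 M ℂ := by
  refine Subtype.ext ?_
  rw [JacTorsion.coe_gal_smul, coe_jBase1]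
  exact ModularCurve.coeffMap_jqModC _

/-- Monodromy on the Kummer group over `ℚ̄`. -/
def kummerChar1 : KummerGrp (AlgebraicClosure ℚ) (JacTorsion.FQ (F1 M)) m →*
    Multiplicative (Gamma0.ellParHoms (G1 M) (ZMod m)) :=
  ((uniformisation1 M).charHom m).comp (JacTorsion.kummerExt (F₀ := F1 M) m)

theorem kummerChar1_bijective : Function.Bijective (kummerChar1 M m) := by
  have := finite_ellParHoms1 M m
  have hfin : Finite (KummerGrp ℂ (F1C M) m) :=
    Finite.of_injective _ ((uniformisation1 M).charHom_bijective m).injective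
  exact ((uniformisation1 M).charHom_bijective m).comp
    ⟨JacTorsion.kummerExt_injective m, JacTorsion.kummerExt_surjective m hfin
      (transcendental_jBase1 M ℂ) (gal_jBase1 M)⟩

/-- The characterising property of `kummerChar1`. -/
theorem kummerChar1_spec (f : divGrp (AlgebraicClosure ℚ) (JacTorsion.FQ (F1 M)) m) (h : MerH)
    (hh : h ^ m = e11 M ((JacTorsion.extQ (F1 M)).emb
      ((f : (JacTorsion.FQ (F1 M))ˣ) : JacTorsion.FQ (F1 M)))) (γ : G1 M) :
    actMer (γ : SL(2, ℤ)) h = algebraMap ℂ MerH (zetaPow m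
      ((kummerChar1 M m (QuotientGroup.mk f)).toAdd.1 (Additive.ofMul γ))) * h :=
  (uniformisation1 M).rootChar_spec (JacTorsion.divGrpExt m f) h hh γ

theorem exists_mer_root1 (f : divGrp (AlgebraicClosure ℚ) (JacTorsion.FQ (F1 M)) m) :
    ∃ h : MerH, h ^ m = e11 M ((JacTorsion.extQ (F1 M)).emb
      ((f : (JacTorsion.FQ (F1 M))ˣ) : JacTorsion.FQ (F1 M))) :=
  (uniformisation1 M).exists_mer_root (JacTorsion.divGrpExt m f)

section RamificationBar

open scoped Classical

variable {M}

theorem emb_jBase1 :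
    (JacTorsion.extQ (F1 M)).emb (jBase1 M (AlgebraicClosure ℚ)) = jF1 M := by
  refine Subtype.ext ?_
  rw [JacTorsion.coe_extQ, coe_jBase1, coe_jF1]
  exact ModularCurve.coeffMap_jqModC _

theorem ord_jBase1_sub_dvd (P : Place (AlgebraicClosure ℚ) (JacTorsion.FQ (F1 M)))
    (a : AlgebraicClosure ℚ)
    (h : 0 < P.ord (jBase1 M (AlgebraicClosure ℚ) - algebraMap _ _ a)) :
    P.ord (jBase1 M (AlgebraicClosure ℚ) - algebraMap _ _ a) ∣
      ((if a = 0 then 3 else if a = 1728 then 2 else 1 : ℕ) : ℤ) := by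
  obtain ⟨w, hw⟩ := JacTorsion.exists_place_over (JacTorsion.extQ (F1 M)) P
    (JacTorsion.residueConst_of_isFunctionField P)
  rw [← hw, map_sub, emb_jBase1, (JacTorsion.extQ (F1 M)).emb_algebraMap] at h ⊢
  have h3 := ord_jF1_sub_dvd w _ h
  have e0 : ((JacTorsion.extQ (F1 M)).base a = 0) ↔ a = 0 := map_eq_zero _
  have e1728 : ((JacTorsion.extQ (F1 M)).base a = 1728) ↔ a = 1728 := by
    rw [show (1728 : ℂ) = (JacTorsion.extQ (F1 M)).base 1728 from (map_ofNat _ 1728).symm]
    exact (JacTorsion.extQ (F1 M)).base.injective.eq_iff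
  simpa only [e0, e1728] using h3

theorem ord_jBase1_dvd (P : Place (AlgebraicClosure ℚ) (JacTorsion.FQ (F1 M)))
    (h : P.ord (jBase1 M (AlgebraicClosure ℚ)) < 0) :
    P.ord (jBase1 M (AlgebraicClosure ℚ)) ∣ (M : ℤ) := by
  obtain ⟨w, hw⟩ := JacTorsion.exists_place_over (JacTorsion.extQ (F1 M)) P
    (JacTorsion.residueConst_of_isFunctionField P)
  rw [← hw, emb_jBase1] at h ⊢
  exact ord_jF1_dvd w h

end RamificationBar

end Fermat.Agent.DeligneSerre.Curve
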