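import Fermat.Agent.DeligneSerre.Curve.Embed
import Fermat.Agent.JacTorsion.CharSurjective

/-!
# `X₁(M)` on the upper half plane: holomorphic functions and roots
-/

set_option autoImplicit false
set_option linter.unusedSectionVars false

noncomputable section

open UpperHalfPlane hiding I
open AlgebraicCurve
open scoped MatrixGroups
open Fermat.Agent.ModFun (MerH HolH actMer invToHolH)

namespace Fermat.Agent.DeligneSerre.Curve

/-- Shortcut: the search through `LaurentSeries` is slow. -/
local instance instAlgebraF1CCurveKummerRoot (M : ℕ) [NeZero M] [GoodLevel M] :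
    Algebra ℂ (F1C M) := inferInstance

variable (M : ℕ) [NeZero M] [GoodLevel M]

/-- `Hol1 M` inside `HolH`. -/
def hol1ToHolH : Hol1 M →ₐ[ℂ] HolH := invToHolH

variable {M}

theorem hol1ToHolH_ne_zero {a : Hol1 M} (ha : a ≠ 0) : hol1ToHolH M a ≠ 0 :=
  (map_ne_zero_iff _ ModFun.invToHolH_injective).mpr ha

theorem e11_toF1C (a : Hol1 M) : e11 M (toF1C M a) = algebraMap HolH MerH (hol1ToHolH M a) :=
  (uniformisation1 M).e_toField a

theorem actMer_e11 {g : SL(2, ℤ)} (hg : g ∈ G1 M) (x : F1C M) : actMer g (e11 M x) = e11 M x :=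
  (uniformisation1 M).actMer_e hg x

end Fermat.Agent.DeligneSerre.Curve
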