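import Fermat.Agent.DeligneSerre.Curve.Diamond
import Fermat.Agent.DeligneSerre.Curve.Kummer
import Fermat.Agent.RedTorsion.SeriesModel
import Mathlib.FieldTheory.Minpoly.IsIntegrallyClosed

/-!
# The field of `±Γ₁(M)` over that of `Γ₀(M)`

It is generated by one translate, whose minimal polynomial is the product over the diamond
classes.
-/

set_option autoImplicit false
set_option linter.unusedSectionVars false

noncomputable section

open Polynomial ModularCurve AlgebraicCurve
open scoped IntermediateField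

namespace Fermat.Agent.DeligneSerre.Curve

open Fermat.Agent.RedTorsion (ratAlgebra transcendental_jF)

local notation "Qb" => AlgebraicClosure ℚ

/-- The `j`-line inside a field of level `N`. -/
scoped instance algLine {K : Type*} [Field K] (N : ℕ) [NeZero N] :
    Algebra (RatFunc K) (modularFunctionFieldFullC K N) :=
  ratAlgebra (transcendental_jF (K := K) (N := N) (F := modularFunctionFieldFullC K N) rfl)

variable (M : ℕ) [NeZero M] [GoodLevel M]

/-- The field of `Γ₀(M)` over `ℚ̄`. -/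
abbrev F0Q : IntermediateField Qb (LaurentSeries Qb) := modularFunctionFieldFullC Qb M

variable {M}

/-- Shortcut: the search through `LaurentSeries` is slow. -/
local instance instAlgebraF0Q : Algebra Qb (F0Q M) := inferInstance

/-- Shortcut: the search through `LaurentSeries` is slow. -/
local instance instAlgebraF1Q : Algebra Qb (F1Q M) := inferInstance

theorem F0Q_le : F0Q M ≤ F1Q M := by
  rw [F0Q, ← ModFun.laurentBaseChange_eq_fullC]
  exact baseChange_full_le Qb

variable (M) in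
/-- The inclusion. -/
def inclF0 : F0Q M →ₐ[Qb] F1Q M := IntermediateField.inclusion F0Q_le

theorem coe_inclF0 (x : F0Q M) : (inclF0 M x : LaurentSeries Qb) = x :=
  IntermediateField.coe_inclusion F0Q_le x

scoped instance algF01 : Algebra (F0Q M) (F1Q M) := (inclF0 M).toRingHom.toAlgebra

theorem algebraMap_F01 (x : F0Q M) : algebraMap (F0Q M) (F1Q M) x = inclF0 M x :=
  RingHom.congr_fun (RingHom.algebraMap_toAlgebra (inclF0 M).toRingHom) x

scoped instance towerQ01 : IsScalarTower Qb (F0Q M) (F1Q M) :=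
  IsScalarTower.of_algebraMap_eq fun c => ((inclF0 M).commutes c).symm

scoped instance algLine1 : Algebra (RatFunc Qb) (F1Q M) :=
  ((algebraMap (F0Q M) (F1Q M)).comp (algebraMap (RatFunc Qb) (F0Q M))).toAlgebra

scoped instance towerR01 : IsScalarTower (RatFunc Qb) (F0Q M) (F1Q M) :=
  IsScalarTower.of_algebraMap_eq fun _ => rfl

theorem coe_algebraMap_line1 (P : Qb[X]) :
    (algebraMap (RatFunc Qb) (F1Q M) (algebraMap Qb[X] (RatFunc Qb) P) : LaurentSeries Qb) =
      aeval (jqModC Qb) P := by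
  show ((RedTorsion.ratLine _ _ : F0Q M) : LaurentSeries Qb) = _
  rw [RedTorsion.ratLine_algebraMap, RedTorsion.coe_aeval_jF]

scoped instance towerQR1 : IsScalarTower Qb (RatFunc Qb) (F1Q M) :=
  IsScalarTower.of_algebraMap_eq fun c => Subtype.ext (by
    rw [RatFunc.algebraMap_eq_C, ← RatFunc.algebraMap_C, coe_algebraMap_line1, aeval_C]
    rfl)

theorem algebraMap_X_eq : algebraMap (RatFunc Qb) (F1Q M) RatFunc.X = jBase1 M Qb :=
  Subtype.ext (by
    rw [← RatFunc.algebraMap_X, coe_algebraMap_line1, aeval_X]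
    rfl)

variable (M) in
/-- The generator. -/
def uGen : F1Q M := ⟨uK Qb 1, uK_mem_baseChange Qb 1⟩

variable (M) in
/-- The field generated by the field of `Γ₀(M)` and one translate, over `ℚ`. -/
def genQ : IntermediateField ℚ (LaurentSeries ℚ) :=
  IntermediateField.adjoin ℚ
    ((modularFunctionFieldFull M : Set (LaurentSeries ℚ)) ∪ {uK ℚ (1 : (ZMod M)ˣ)})

theorem uK_mem_genQ (a : (ZMod M)ˣ) : uK ℚ a ∈ genQ M := by
  refine JacTorsion.mem_of_coeffMap_mem_cExt (ι := algebraMap ℚ ℂ) ?_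
  rw [coeffMap_uK, ← qExp1_uC]
  refine (IntermediateField.adjoin_le_iff.mpr ?_) (qExp1_mem_adjoin (uC a))
  have hgen : ∀ z ∈ ((modularFunctionFieldFull M : Set (LaurentSeries ℚ)) ∪
      {uK ℚ (1 : (ZMod M)ˣ)}), coeffMap (algebraMap ℚ ℂ) z ∈
        JacTorsion.cExt (algebraMap ℚ ℂ) (genQ M) := fun z hz =>
    JacTorsion.coeffMap_mem_cExt _ _ (IntermediateField.subset_adjoin ℚ _ hz)
  rintro x (hx | hx)
  · rw [SetLike.mem_coe, ModFun.FC, ← ModFun.laurentBaseChange_eq_fullC] at hx
    refine (IntermediateField.adjoin_le_iff.mpr ?_) hx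
    rintro _ ⟨z, hz, rfl⟩
    exact hgen z (Or.inl hz)
  · rw [Set.mem_singleton_iff.mp hx, qExp1_uC, ← coeffMap_uK ℚ (algebraMap ℚ ℂ)]
    exact hgen _ (Or.inr rfl)

theorem F1_le_genQ : F1 M ≤ genQ M := by
  rw [F1, IntermediateField.adjoin_le_iff]
  rintro x (hx | ⟨a, rfl⟩)
  · exact IntermediateField.subset_adjoin ℚ _ (Or.inl hx)
  · exact uK_mem_genQ a

theorem mem_adjoin_uGen (x : F1Q M) : x ∈ (F0Q M)⟮uGen M⟯ := by
  let S := (F0Q M)⟮uGen M⟯.restrictScalars Qb
  suffices h : F1Q M ≤ IntermediateField.lift S from (IntermediateField.mem_lift x).1 (h x.2)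
  have hS : ∀ y : F1Q M, y ∈ (F0Q M)⟮uGen M⟯ → (y : LaurentSeries Qb) ∈ IntermediateField.lift S :=
    fun y hy => (IntermediateField.mem_lift y).2 hy
  refine IntermediateField.adjoin_le_iff.2 ?_
  rintro _ ⟨w, hw, rfl⟩
  refine IntermediateField.adjoin_le_subfield
    (K := (IntermediateField.lift S).toSubfield.comap (coeffEmb Qb)) ℚ _ ?_ ?_ (F1_le_genQ hw)
  · rintro _ ⟨c, rfl⟩
    rw [eq_ratCast]
    exact SubfieldClass.ratCast_mem _ c
  rintro v (hv | rfl)
  · refine hS (algebraMap (F0Q M) (F1Q M) ⟨coeffEmb Qb v, ?_⟩) (IntermediateField.algebraMap_mem _ _)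
    rw [F0Q, ← ModFun.laurentBaseChange_eq_fullC]
    exact coeffEmb_mem_laurentBaseChange Qb hv
  · refine Subfield.mem_comap.2 ?_
    rw [coeffEmb_uK]
    exact hS (uGen M) (IntermediateField.mem_adjoin_simple_self _ _)

variable (M) in
/-- The product over the diamond classes. -/
def diaPolyQb : (LaurentSeries Qb)[X] := (diaPolyQ M).map (coeffEmb Qb)

theorem diaPolyQb_eq : diaPolyQb M = ∏ q : Idx M, (X - C (uK Qb q.out)) := by
  simp only [diaPolyQb, diaPolyQ, Polynomial.map_prod, Polynomial.map_sub, map_X, map_C,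
    coeffEmb_uK]

theorem coeff_diaPolyQb_mem (n : ℕ) : (diaPolyQb M).coeff n ∈ F0Q M := by
  rw [diaPolyQb, coeff_map, F0Q, ← ModFun.laurentBaseChange_eq_fullC]
  exact coeffEmb_mem_laurentBaseChange Qb (coeff_diaPolyQ_mem n)

theorem monic_diaPolyQb : (diaPolyQb M).Monic := by
  rw [diaPolyQb_eq]
  exact monic_prod_of_monic _ _ fun q _ => monic_X_sub_C _

theorem natDegree_diaPolyQb : (diaPolyQb M).natDegree = Fintype.card (Idx M) := by
  rw [diaPolyQb_eq, natDegree_prod _ _ fun q _ => X_sub_C_ne_zero _]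
  simp

/-- The polynomial over the field of `Γ₀(M)`. -/
theorem exists_relation : ∃ Q : (F0Q M)[X], Q.Monic ∧ Q.natDegree = Fintype.card (Idx M) ∧
    Q.map (algebraMap (F0Q M) (LaurentSeries Qb)) = diaPolyQb M ∧ aeval (uGen M) Q = 0 := by
  have hl : diaPolyQb M ∈ Polynomial.lifts (algebraMap (F0Q M) (LaurentSeries Qb)) :=
    (lifts_iff_coeff_lifts _).2 fun n => ⟨⟨_, coeff_diaPolyQb_mem n⟩, rfl⟩
  obtain ⟨Q, hQ, hd, hm⟩ := Polynomial.lifts_and_natDegree_eq_and_monic hl monic_diaPolyQb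
  refine ⟨Q, hm, by rw [hd, natDegree_diaPolyQb], hQ, Subtype.ext ?_⟩
  have h : ((aeval (uGen M) Q : F1Q M) : LaurentSeries Qb) =
      Q.eval₂ (algebraMap (F0Q M) (LaurentSeries Qb)) (uK Qb (1 : (ZMod M)ˣ)) :=
    hom_eval₂ Q _ (F1Q M).val.toRingHom (uGen M)
  rw [h, ← eval_map, hQ, diaPolyQb, eval_diaPolyQ]
  rfl

theorem isIntegral_uGen : IsIntegral (F0Q M) (uGen M) :=
  let ⟨Q, hm, _, _, hQ⟩ := exists_relation (M := M)
  ⟨Q, hm, hQ⟩

theorem diaQ_inclF0 (u : (ZMod M)ˣ) (x : F0Q M) : diaQ M u (inclF0 M x) = inclF0 M x := by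
  refine toC1_injective ?_
  rw [toC1_diaQ]
  refine diaC_of_mem_FC u _ ?_
  have hx : (x : LaurentSeries Qb) ∈ JacTorsion.FQ (modularFunctionFieldFull M) := by
    rw [JacTorsion.FQ, ModFun.laurentBaseChange_eq_fullC]
    exact x.2
  rw [coe_toC1, coe_inclF0, ModFun.FC, ← ModFun.laurentBaseChange_eq_fullC]
  exact ((JacTorsion.extQ (modularFunctionFieldFull M)).emb ⟨_, hx⟩).2

theorem diaQ_uGen (u : (ZMod M)ˣ) :
    diaQ M u (uGen M) = ⟨uK Qb u, uK_mem_baseChange Qb u⟩ := by
  refine toC1_injective ?_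
  rw [toC1_diaQ]
  have h : ∀ a : (ZMod M)ˣ, toC1 M ⟨uK Qb a, uK_mem_baseChange Qb a⟩ =
      ⟨uK ℂ a, uK_mem_baseChange ℂ a⟩ := fun a =>
    Subtype.ext ((coe_toC1 _).trans (coeffMap_uK _ _ _))
  refine ((congrArg (diaC M u) (h 1)).trans (diaC_uK u 1)).trans ((?_ : _ = _).trans (h u).symm)
  exact Subtype.ext (congrArg (uK ℂ) (one_mul u))

theorem natDegree_minpoly_uGen :
    (minpoly (F0Q M) (uGen M)).natDegree = Fintype.card (Idx M) := by
  classical
  obtain ⟨Q, hm, hd, -, hQ⟩ := exists_relation (M := M)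
  refine le_antisymm (hd ▸ natDegree_le_of_dvd (minpoly.dvd _ _ hQ) hm.ne_zero) ?_
  set P := minpoly (F0Q M) (uGen M) with hP
  have hm' : P.Monic := minpoly.monic isIntegral_uGen
  let r : Idx M → F1Q M := fun q => diaQ M q.out (uGen M)
  have hroot : ∀ q, (P.map (algebraMap (F0Q M) (F1Q M))).IsRoot (r q) := fun q => by
    have h := congrArg (diaQ M q.out) (minpoly.aeval (F0Q M) (uGen M))
    rw [aeval_def, hom_eval₂, map_zero] at h
    rw [IsRoot.def, eval_map]
    have he : (diaQ M q.out).comp (algebraMap (F0Q M) (F1Q M)) = algebraMap (F0Q M) (F1Q M) :=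
      RingHom.ext fun x => by rw [RingHom.comp_apply, algebraMap_F01, diaQ_inclF0]
    rw [he] at h
    exact h
  have hinj : Function.Injective r := fun q q' h => by
    simp only [r, diaQ_uGen, Subtype.mk.injEq] at h
    exact (idx_eq_of_eq_or_neg (uK_eq_iff (Nat.cast_ne_zero.2 (NeZero.ne M)) h)).symm
  have hne : P.map (algebraMap (F0Q M) (F1Q M)) ≠ 0 := (hm'.map _).ne_zero
  calc Fintype.card (Idx M) = (Finset.univ.image r).card := by
        rw [Finset.card_image_of_injective _ hinj]; rfl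
    _ ≤ (P.map (algebraMap (F0Q M) (F1Q M))).natDegree :=
        card_le_degree_of_subset_roots fun x hx => by
          obtain ⟨q, -, rfl⟩ := Finset.mem_image.1 hx
          exact (mem_roots hne).2 (hroot q)
    _ = P.natDegree := hm'.natDegree_map _

theorem adjoin_uGen_eq_top : Algebra.adjoin (F0Q M) {uGen M} = ⊤ := by
  rw [← IntermediateField.adjoin_simple_toSubalgebra_of_isAlgebraic isIntegral_uGen.isAlgebraic,
    eq_top_iff]
  exact fun x _ => mem_adjoin_uGen x

section GenBasis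

variable {K F : Type*} [Field K] [Field F] [Algebra K F] {x : F}

/-- The powers of a generator as a basis. -/
def genBasis (hx : IsIntegral K x) (htop : Algebra.adjoin K {x} = ⊤) {n : ℕ}
    (hn : (minpoly K x).natDegree = n) : Module.Basis (Fin n) K F :=
  (PowerBasis.ofAdjoinEqTop' hx htop).basis.reindex
    (finCongr (by rw [PowerBasis.ofAdjoinEqTop'_dim, hn]))

theorem genBasis_apply (hx : IsIntegral K x) (htop : Algebra.adjoin K {x} = ⊤) {n : ℕ}
    (hn : (minpoly K x).natDegree = n) (i : Fin n) : genBasis hx htop hn i = x ^ (i : ℕ) := by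
  rw [genBasis, Module.Basis.reindex_apply, PowerBasis.basis_eq_pow, PowerBasis.ofAdjoinEqTop'_gen]
  rfl

end GenBasis

variable (M) in
/-- Powers of the generator. -/
def basis1 : Module.Basis (Fin (Fintype.card (Idx M))) (F0Q M) (F1Q M) :=
  genBasis isIntegral_uGen adjoin_uGen_eq_top natDegree_minpoly_uGen

theorem basis1_apply (i : Fin (Fintype.card (Idx M))) : basis1 M i = uGen M ^ (i : ℕ) :=
  genBasis_apply _ _ _ i

end Fermat.Agent.DeligneSerre.Curve
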