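import Fermat.Agent.DeligneSerre.Conjugate
import Fermat.Agent.DeligneSerre.Curve.Hol
import Fermat.Agent.ModFun.Forms
import Mathlib.NumberTheory.DirichletCharacter.Orthogonality
import Mathlib.NumberTheory.LSeries.PrimesInAP

/-!
# The functions `H_a ^ 12 / Δ` generating the field of `±Γ₁(M)` over that of `Γ₀(M)`
-/

set_option autoImplicit false

noncomputable section

open UpperHalfPlane hiding I
open Function Filter Complex CongruenceSubgroup
open Fermat.Agent.ModFun (MeroAtInfty BddAlg CuspAlg laurentExp qExpBdd)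
open scoped Manifold MatrixGroups Real Topology ModularForm Classical

namespace Fermat.Agent.DeligneSerre.Curve

/-- A level with a unit of order not dividing four. -/
class GoodLevel (M : ℕ) : Prop where
  exists_unit : ∃ c : (ZMod M)ˣ, c ^ 4 ≠ 1

variable (M : ℕ) [GoodLevel M]

/-- A chosen unit with `c ^ 4 ≠ 1`. -/
def cU : (ZMod M)ˣ := GoodLevel.exists_unit.choose

theorem cU_pow_four : cU M ^ 4 ≠ 1 := GoodLevel.exists_unit.choose_spec

theorem one_ne_neg_one : (1 : ZMod M) ≠ -1 := by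
  intro h
  have h2 : ((2 : ℕ) : ZMod M) = 0 := by push_cast; linear_combination h
  rw [ZMod.natCast_eq_zero_iff] at h2
  have hM := Nat.le_of_dvd two_pos h2
  have hM0 : M ≠ 0 := fun h0 => by subst h0; exact absurd (zero_dvd_iff.mp h2) two_ne_zero
  refine cU_pow_four M (Units.ext ?_)
  have : M = 1 ∨ M = 2 := by omega
  rcases this with rfl | rfl
  · exact Subsingleton.elim _ _
  · generalize cU 2 = c
    revert c
    decide

theorem cU_sq_ne_one : cU M ^ 2 ≠ 1 := fun h => cU_pow_four M (by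
  rw [show cU M ^ 4 = (cU M ^ 2) ^ 2 by rw [← pow_mul], h, one_pow])

theorem cU_sq_ne_neg_one : cU M ^ 2 ≠ -1 := fun h => cU_pow_four M (by
  rw [show cU M ^ 4 = (cU M ^ 2) ^ 2 by rw [← pow_mul], h, neg_one_sq])

theorem cU_ne_one : cU M ≠ 1 := fun h => cU_sq_ne_one M (by rw [h, one_pow])

theorem cU_ne_neg_one : cU M ≠ -1 := fun h => cU_sq_ne_one M (by rw [h, neg_one_sq])

variable {M}

/-- `[x = 1] - [x = -1]`. -/
def sgAt (x : ZMod M) : ℤ := (if x = 1 then 1 else 0) - (if x = -1 then 1 else 0)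

theorem sgAt_one : sgAt (1 : ZMod M) = 1 := by
  rw [sgAt, if_pos rfl, if_neg (one_ne_neg_one M), sub_zero]

omit [GoodLevel M] in
theorem sgAt_eq_zero {x : ZMod M} (h1 : x ≠ 1) (h2 : x ≠ -1) : sgAt x = 0 := by
  rw [sgAt, if_neg h1, if_neg h2, sub_zero]

variable [NeZero M]

omit [GoodLevel M] in
theorem sum_odd_char (x : ZMod M) :
    ∑ ψ ∈ Finset.univ.filter (fun ψ : DirichletCharacter ℂ M => ψ.Odd), ψ x
      = (M.totient : ℂ) / 2 * (sgAt x : ℂ) := by
  have h : ∀ ψ : DirichletCharacter ℂ M,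
      (if ψ.Odd then ψ x else 0) = (ψ x - ψ (-x)) / 2 := by
    intro ψ
    have hx : ψ (-x) = ψ (-1) * ψ x := by rw [← map_mul, neg_one_mul]
    rcases ψ.even_or_odd with he | ho
    · rw [if_neg, hx, he, one_mul, sub_self, zero_div]
      intro ho
      have : (1 : ℂ) = -1 := he.symm.trans ho
      norm_num at this
    · rw [if_pos ho, hx, ho]; ring
  rw [Finset.sum_filter, Finset.sum_congr rfl fun ψ _ => h ψ, ← Finset.sum_div,
    Finset.sum_sub_distrib, DirichletCharacter.sum_characters_eq,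
    DirichletCharacter.sum_characters_eq, sgAt]
  simp only [neg_eq_iff_eq_neg]
  push_cast
  split_ifs <;> ring

/-- The weight one form `H_a`. -/
def eisH (a : (ZMod M)ˣ) : ℍ → ℂ :=
  (2 / (M.totient : ℂ)) • ∑ ψ ∈ Finset.univ.filter (fun ψ : DirichletCharacter ℂ M => ψ.Odd),
    (ψ (a : ZMod M) - ψ (cU M * a : ZMod M)) • eisOne ψ

theorem eisH_slash (a : (ZMod M)ˣ) {γ : SL(2, ℤ)} (hγ : γ ∈ Gamma0 M) (d : (ZMod M)ˣ)
    (hd : (γ 1 1 : ZMod M) = d) : eisH a ∣[(1 : ℤ)] γ = eisH (a * d) := by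
  rw [eisH, eisH, ModularForm.SL_smul_slash, ModularForm.SL_slash, SlashAction.sum_slash]
  congr 1
  refine Finset.sum_congr rfl fun ψ hψ => ?_
  rw [← ModularForm.SL_slash, ModularForm.SL_smul_slash,
    eisOne_slash_gamma0 (Finset.mem_filter.1 hψ).2 hγ, hd, smul_smul]
  congr 1
  simp only [Units.val_mul, map_mul]
  ring

theorem mdifferentiable_eisH (a : (ZMod M)ˣ) : MDiff (eisH a) := by
  refine MDifferentiable.const_smul _ (Finset.sum_induction _ (fun g : ℍ → ℂ => MDiff g)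
    (fun _ _ ha hb => ha.add hb) mdifferentiable_const fun ψ hψ => ?_)
  exact (mdifferentiable_eisOne (Finset.mem_filter.1 hψ).2).const_smul _

theorem isBounded_slash_eisH (a : (ZMod M)ˣ) (γ : SL(2, ℤ)) :
    IsBoundedAtImInfty (eisH a ∣[(1 : ℤ)] γ) := by
  rw [eisH, ModularForm.SL_smul_slash, ModularForm.SL_slash, SlashAction.sum_slash]
  refine Filter.BoundedAtFilter.smul _ (Finset.sum_induction _
    (fun g : ℍ → ℂ => IsBoundedAtImInfty g) (fun _ _ ha hb => ha.add hb)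
    (Filter.const_boundedAtFilter _ (0 : ℂ)) fun ψ hψ => ?_)
  rw [← ModularForm.SL_slash, ModularForm.SL_smul_slash]
  exact (isBoundedAtImInfty_slash_eisOne (Finset.mem_filter.1 hψ).2 γ).smul _

theorem sum_val_mul_sgAt (b : (ZMod M)ˣ) :
    ∑ t : ZMod M, (t.val : ℤ) * sgAt ((b : ZMod M) * t)
      = 2 * ((b⁻¹ : (ZMod M)ˣ) : ZMod M).val - M := by
  have e1 : ∀ t : ZMod M, (b : ZMod M) * t = 1 ↔ t = ((b⁻¹ : (ZMod M)ˣ) : ZMod M) := fun t => by
    constructor
    · intro h; rw [← one_mul t, ← b.inv_mul, mul_assoc, h, mul_one]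
    · rintro rfl; exact b.mul_inv
  have e2 : ∀ t : ZMod M, (b : ZMod M) * t = -1 ↔ t = -((b⁻¹ : (ZMod M)ˣ) : ZMod M) := fun t => by
    constructor
    · intro h; rw [← one_mul t, ← b.inv_mul, mul_assoc, h, mul_neg, mul_one]
    · rintro rfl; rw [mul_neg, b.mul_inv]
  simp only [sgAt, e1, e2, mul_sub, mul_ite, mul_one, mul_zero, Finset.sum_sub_distrib,
    Finset.sum_ite_eq', Finset.mem_univ, if_true]
  have : Nontrivial (ZMod M) := ⟨⟨_, _, one_ne_neg_one M⟩⟩
  have : NeZero ((b⁻¹ : (ZMod M)ˣ) : ZMod M) := ⟨(b⁻¹).ne_zero⟩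
  rw [ZMod.val_neg_of_ne_zero, Nat.cast_sub (ZMod.val_lt _).le]
  ring

/-- `M` times the coefficients of `H_a`. -/
def hNum (a : (ZMod M)ˣ) (n : ℕ) : ℤ :=
  if n = 0 then ((((cU M * a)⁻¹ : (ZMod M)ˣ) : ZMod M).val : ℤ)
      - (((a⁻¹ : (ZMod M)ˣ) : ZMod M).val : ℤ)
  else M * ∑ m ∈ n.divisors, (sgAt ((a : ZMod M) * (m : ZMod M)) - sgAt ((cU M * a : ZMod M) * (m : ZMod M)))

theorem sum_eisCoeff (a : (ZMod M)ˣ) (n : ℕ) :
    2 / (M.totient : ℂ) * ∑ ψ ∈ Finset.univ.filter (fun ψ : DirichletCharacter ℂ M => ψ.Odd),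
      (ψ (a : ZMod M) - ψ (cU M * a : ZMod M)) * eisCoeff ψ n = (hNum a n : ℂ) * (M : ℂ)⁻¹ := by
  have hM : (M : ℂ) ≠ 0 := Nat.cast_ne_zero.2 (NeZero.ne M)
  have hφ : (M.totient : ℂ) ≠ 0 :=
    Nat.cast_ne_zero.2 (Nat.totient_pos.2 (NeZero.pos M)).ne'
  set S := Finset.univ.filter (fun ψ : DirichletCharacter ℂ M => ψ.Odd)
  have key : ∀ (x : ZMod M), ∑ ψ ∈ S, (ψ (a : ZMod M) - ψ (cU M * a : ZMod M)) * ψ x
      = (M.totient : ℂ) / 2 * ((sgAt ((a : ZMod M) * x) : ℂ)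
          - (sgAt ((cU M * a : ZMod M) * x) : ℂ)) := by
    intro x
    simp only [sub_mul, ← map_mul, Finset.sum_sub_distrib]
    rw [sum_odd_char, sum_odd_char]
    ring
  rcases eq_or_ne n 0 with rfl | hn
  · simp only [eisCoeff, hNum, if_pos]
    calc 2 / (M.totient : ℂ) * ∑ ψ ∈ S, (ψ (a : ZMod M) - ψ (cU M * a : ZMod M))
          * (-(1 / (2 * (M : ℂ))) * ∑ t : ZMod M, (t.val : ℂ) * ψ t)
        = -(1 / (2 * (M : ℂ))) * (2 / (M.totient : ℂ)) * ∑ t : ZMod M, (t.val : ℂ)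
            * ∑ ψ ∈ S, (ψ (a : ZMod M) - ψ (cU M * a : ZMod M)) * ψ t := by
          simp only [Finset.mul_sum]
          rw [Finset.sum_comm]
          exact Finset.sum_congr rfl fun t _ => Finset.sum_congr rfl fun ψ _ => by ring
      _ = -(1 / (2 * (M : ℂ))) * (((∑ t : ZMod M, (t.val : ℤ) * sgAt ((a : ZMod M) * t) : ℤ) : ℂ)
            - ((∑ t : ZMod M, (t.val : ℤ) * sgAt ((cU M * a : ZMod M) * t) : ℤ) : ℂ)) := by
          simp only [key]
          push_cast
          rw [mul_assoc, ← Finset.sum_sub_distrib, Finset.mul_sum]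
          congr 1
          exact Finset.sum_congr rfl fun t _ => by field_simp
      _ = _ := by
          rw [sum_val_mul_sgAt, ← Units.val_mul, sum_val_mul_sgAt]
          push_cast
          field_simp
          ring
  · simp only [eisCoeff, if_neg hn, hNum]
    calc 2 / (M.totient : ℂ) * ∑ ψ ∈ S, (ψ (a : ZMod M) - ψ (cU M * a : ZMod M))
          * ∑ m ∈ n.divisors, ψ (m : ZMod M)
        = 2 / (M.totient : ℂ) * ∑ m ∈ n.divisors,
            ∑ ψ ∈ S, (ψ (a : ZMod M) - ψ (cU M * a : ZMod M)) * ψ (m : ZMod M) := by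
          simp only [Finset.mul_sum]
          rw [Finset.sum_comm]
      _ = _ := by
          simp only [key]
          push_cast
          rw [← Finset.mul_sum, ← mul_assoc]
          field_simp

theorem hasSum_eisH (a : (ZMod M)ˣ) (τ : ℍ) :
    HasSum (fun n : ℕ => ((hNum a n : ℂ) * (M : ℂ)⁻¹) • ModFun.qFun 1 τ ^ n) (eisH a τ) := by
  have h := (hasSum_sum (s := Finset.univ.filter (fun ψ : DirichletCharacter ℂ M => ψ.Odd))
    fun ψ hψ => (hasSum_eisOne (Finset.mem_filter.1 hψ).2 τ).mul_left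
      (ψ (a : ZMod M) - ψ (cU M * a : ZMod M))).mul_left (2 / (M.totient : ℂ))
  rw [eisH, Pi.smul_apply, Finset.sum_apply, smul_eq_mul]
  refine h.congr_fun fun n => ?_
  rw [smul_eq_mul, ← sum_eisCoeff, mul_assoc, Finset.sum_mul]
  simp [ModFun.qFun, mul_assoc]

theorem qExpBdd_eisH (a : (ZMod M)ˣ) (h : eisH a ∈ BddAlg 1) :
    qExpBdd 1 ⟨eisH a, h⟩ = PowerSeries.mk fun n => (hNum a n : ℂ) * (M : ℂ)⁻¹ :=
  ModFun.qExpBdd_eq_of_hasSum (g := ⟨eisH a, h⟩) (hasSum_eisH a)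

theorem eisH_mem_BddAlg (a : (ZMod M)ˣ) : eisH a ∈ BddAlg 1 :=
  ModFun.mem_BddAlg_of_hasSum (mdifferentiable_eisH a) (hasSum_eisH a)

/-- `H_a ^ 12 / Δ`. -/
def uFn (a : (ZMod M)ˣ) : ℍ → ℂ :=
  fun τ => (eisH a ^ 12) τ / ModularForm.discriminant τ ^ 1

theorem slash_twelve (a : (ZMod M)ˣ) (γ : SL(2, ℤ)) :
    (eisH a ^ 12) ∣[((12 * 1 : ℕ) : ℤ)] γ = (eisH a ∣[(1 : ℤ)] γ) ^ 12 := by
  have := slash_pow 1 (eisH a) γ 12
  rwa [mul_one] at this

theorem eisH_neg_pow (a : (ZMod M)ˣ) : eisH (-a) = -eisH a := by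
  rw [eisH, eisH, ← smul_neg, ← Finset.sum_neg_distrib]
  congr 1
  refine Finset.sum_congr rfl fun ψ hψ => ?_
  have ho := (Finset.mem_filter.1 hψ).2
  have key : ∀ x : ZMod M, ψ (-x) = -ψ x := fun x => by
    rw [← neg_one_mul x, map_mul, ho, neg_one_mul]
  rw [Units.val_neg, mul_neg, key, key]
  funext τ
  simp only [Pi.neg_apply, Pi.smul_apply, smul_eq_mul]
  ring

theorem uFn_smul (a : (ZMod M)ˣ) {γ : SL(2, ℤ)} (hγ : γ ∈ Gamma0 M) (d : (ZMod M)ˣ)
    (hd : (γ 1 1 : ZMod M) = d) (τ : ℍ) : uFn a (γ • τ) = uFn (a * d) τ := by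
  rw [uFn, ModFun.div_disc_pow_smul, slash_twelve, eisH_slash a hγ d hd]
  rfl

theorem uFn_neg (a : (ZMod M)ˣ) : uFn (-a) = uFn a := by
  funext τ
  simp only [uFn, eisH_neg_pow, Pi.pow_apply, Pi.neg_apply, Even.neg_pow (show Even 12 by decide)]

theorem uFn_mem_Hol1 (a : (ZMod M)ˣ) : uFn a ∈ Hol1 M := by
  refine ⟨?_, fun g hg τ => ?_, fun g => ⟨1, ?_⟩⟩
  · rw [UpperHalfPlane.mdifferentiable_iff]
    exact ((UpperHalfPlane.mdifferentiable_iff.mp (mdifferentiable_eisH a)).pow 12).div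
      ((UpperHalfPlane.mdifferentiable_iff.mp ModFun.mdifferentiable_discriminant).pow 1)
      fun z _ => pow_ne_zero _ (ModularForm.discriminant_ne_zero _)
  · rcases (mem_G1_iff.1 hg).2 with h | h
    · rw [uFn_smul a (G1_le_Gamma0 hg) 1 (by simpa using h), mul_one]
    · rw [uFn_smul a (G1_le_Gamma0 hg) (-1) (by simpa using h), mul_neg, mul_one, uFn_neg]
  · have : ModularForm.discriminant ^ 1 * (fun τ => uFn a (g • τ))
        = (eisH a ∣[(1 : ℤ)] g) ^ 12 := by
      funext τ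
      rw [← slash_twelve]
      simp only [Pi.mul_apply, Pi.pow_apply, uFn]
      rw [← Pi.pow_apply (eisH a) 12, ModFun.div_disc_pow_smul,
        mul_div_cancel₀ _ (pow_ne_zero _ (ModularForm.discriminant_ne_zero τ))]
    rw [this]
    exact ModFun.isBounded_pow (isBounded_slash_eisH a g) 12

/-- `H_a ^ 12 / Δ` as an element of `Hol1 M`. -/
def uC (a : (ZMod M)ˣ) : Hol1 M := ⟨uFn a, uFn_mem_Hol1 a⟩

theorem dia_uC (d a : (ZMod M)ˣ) : dia M d (uC a) = uC (a * d) :=
  hol1_ext fun τ => uFn_smul a (diaRep_mem d) d (diaRep_lowerRight d) τ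

theorem uC_neg (a : (ZMod M)ˣ) : uC (-a) = uC a := Subtype.ext (uFn_neg a)

section Series

variable (R : Type*) [CommRing R]

/-- The expansion of `H_a ^ 12 / Δ` over a ring in which `im` plays the role of `1 / M`. -/
def uSer (im : R) (a : (ZMod M)ˣ) : LaurentSeries R :=
  HahnSeries.single (-1 : ℤ) (1 : R)
    * HahnSeries.ofPowerSeries ℤ R (ModularCurve.dedekindEtaUnitInv.map (Int.castRingHom R))
    * HahnSeries.ofPowerSeries ℤ R (PowerSeries.mk fun n => (hNum a n : R) * im) ^ 12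

variable {R}

omit [NeZero M] in
theorem coeffMap_uSer {S : Type*} [CommRing S] (f : R →+* S) (im : R) (a : (ZMod M)ˣ) :
    ModularCurve.coeffMap f (uSer R im a) = uSer S (f im) a := by
  rw [uSer, uSer, map_mul, map_mul, map_pow, ModularCurve.coeffMap_single, map_one,
    ModularCurve.coeffMap_ofPowerSeries, ModularCurve.coeffMap_ofPowerSeries]
  congr 3
  · ext n; simp
  · ext n; simp

variable (K : Type*) [Field K]

/-- The expansion of `H_a ^ 12 / Δ` over a field. -/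
def uK (a : (ZMod M)ˣ) : LaurentSeries K := uSer K (M : K)⁻¹ a

omit [NeZero M] in
theorem coeffMap_uK {L : Type*} [Field L] (f : K →+* L) (a : (ZMod M)ˣ) :
    ModularCurve.coeffMap f (uK K a) = uK L a := by
  rw [uK, uK, coeffMap_uSer, map_inv₀, map_natCast]

theorem qExp1_uC (a : (ZMod M)ˣ) : qExp1 M (uC a) = uK ℂ a := by
  have h1 : Subalgebra.inclusion (Hol1_le_CuspAlg_one (M := M)) (uC a)
      * Subalgebra.inclusion (ModFun.BddAlg_le_CuspAlg 1) (ModFun.discBdd 1)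
      = Subalgebra.inclusion (ModFun.BddAlg_le_CuspAlg 1) (⟨eisH a, eisH_mem_BddAlg a⟩ ^ 12) := by
    refine Subtype.ext (funext fun τ => ?_)
    show uFn a τ * ModularForm.discriminant τ = (eisH a ^ 12) τ
    rw [uFn, pow_one, div_mul_cancel₀ _ (ModularForm.discriminant_ne_zero τ)]
  have hD : qExpBdd 1 (ModFun.discBdd 1)
      = (PowerSeries.X * ModularCurve.dedekindEtaUnit).map (Int.castRingHom ℂ) := by
    rw [ModFun.qExpBdd_apply, Nat.cast_one]; exact ModFun.qExpansion_discriminant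
  have h2 := congrArg (laurentExp 1) h1
  rw [map_mul, ModFun.laurentExp_of_bdd, ModFun.laurentExp_of_bdd, map_pow (qExpBdd 1),
    qExpBdd_eisH, hD, map_pow] at h2
  have hne : HahnSeries.ofPowerSeries ℤ ℂ
      ((PowerSeries.X * ModularCurve.dedekindEtaUnit).map (Int.castRingHom ℂ)) ≠ 0 := by
    rw [← hD]; exact ModFun.discSeries_ne_zero 1
  refine mul_right_cancel₀ hne (h2.trans ?_)
  have h4 : HahnSeries.ofPowerSeries ℤ ℂ
      (ModularCurve.dedekindEtaUnitInv.map (Int.castRingHom ℂ))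
      * HahnSeries.ofPowerSeries ℤ ℂ
        (ModularCurve.dedekindEtaUnit.map (Int.castRingHom ℂ)) = 1 := by
    rw [← map_mul, ← map_mul, mul_comm, ModularCurve.dedekindEtaUnit_mul_inv, map_one, map_one]
  have h5 : (HahnSeries.single (-1 : ℤ) (1 : ℂ)) * HahnSeries.single (1 : ℤ) 1 = 1 := by
    rw [HahnSeries.single_mul_single]; simp
  rw [uK, uSer, map_mul (PowerSeries.map _), PowerSeries.map_X, map_mul,
    HahnSeries.ofPowerSeries_X]
  linear_combination (-(HahnSeries.ofPowerSeries ℤ ℂ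
      (PowerSeries.mk fun n => (hNum a n : ℂ) * (M : ℂ)⁻¹)) ^ 12
      * (HahnSeries.single (-1 : ℤ) (1 : ℂ) * HahnSeries.single (1 : ℤ) 1)) * h4
    - (HahnSeries.ofPowerSeries ℤ ℂ
      (PowerSeries.mk fun n => (hNum a n : ℂ) * (M : ℂ)⁻¹)) ^ 12 * h5

theorem uK_neg [CharZero K] (a : (ZMod M)ˣ) : uK K (-a) = uK K a := by
  have h : uK ℚ (-a) = uK ℚ a := by
    refine (ModularCurve.coeffMap (algebraMap ℚ ℂ)).injective ?_
    rw [coeffMap_uK, coeffMap_uK, ← qExp1_uC, ← qExp1_uC, uC_neg]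
  rw [← coeffMap_uK ℚ (algebraMap ℚ K), h, coeffMap_uK]

omit [NeZero M] in
theorem hNum_prime_sub (a : (ZMod M)ˣ) {q : ℕ} (hq : q.Prime) :
    hNum a q - hNum a 1
      = M * (sgAt ((a : ZMod M) * (q : ZMod M)) - sgAt ((cU M * a : ZMod M) * (q : ZMod M))) := by
  rw [hNum, hNum, if_neg hq.ne_zero, if_neg one_ne_zero, hq.divisors,
    Finset.sum_pair hq.one_lt.ne, Nat.divisors_one, Finset.sum_singleton]
  ring

variable {K}

omit [NeZero M] in
theorem hNum_proportional [IsAlgClosed K] {a b : (ZMod M)ˣ} (hM : (M : K) ≠ 0)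
    (h : uK K a = uK K b) : ∃ z : K, ∀ n, (hNum a n : K) = z * (hNum b n : K) := by
  set P := fun c : (ZMod M)ˣ =>
    HahnSeries.ofPowerSeries ℤ K (PowerSeries.mk fun n => (hNum c n : K) * (M : K)⁻¹) with hP
  have hne : HahnSeries.single (-1 : ℤ) (1 : K)
      * HahnSeries.ofPowerSeries ℤ K
        (ModularCurve.dedekindEtaUnitInv.map (Int.castRingHom K)) ≠ 0 := by
    refine mul_ne_zero (by simp) fun h0 => ?_
    have h1 : HahnSeries.ofPowerSeries ℤ K
        (ModularCurve.dedekindEtaUnitInv.map (Int.castRingHom K))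
        * HahnSeries.ofPowerSeries ℤ K
          (ModularCurve.dedekindEtaUnit.map (Int.castRingHom K)) = 1 := by
      rw [← map_mul, ← map_mul, mul_comm, ModularCurve.dedekindEtaUnit_mul_inv, map_one, map_one]
    rw [h0, zero_mul] at h1
    exact zero_ne_one h1
  have hpow : P a ^ 12 = P b ^ 12 := mul_left_cancel₀ hne h
  have hcoeff : ∀ (c : (ZMod M)ˣ) (n : ℕ), (P c).coeff (n : ℤ) = (hNum c n : K) * (M : K)⁻¹ :=
    fun c n => by simp only [hP, HahnSeries.ofPowerSeries_apply_coeff, PowerSeries.coeff_mk]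
  rcases eq_or_ne (P b) 0 with hb | hb
  · refine ⟨0, fun n => ?_⟩
    rw [hb, zero_pow (by norm_num)] at hpow
    have := hcoeff a n
    rw [pow_eq_zero_iff (by norm_num) |>.1 hpow] at this
    simpa [hM] using this.symm
  · have hr : IsIntegral K (P a / P b) := by
      refine ⟨Polynomial.X ^ 12 - 1, Polynomial.monic_X_pow_sub_C _ (by norm_num), ?_⟩
      rw [Polynomial.eval₂_sub, Polynomial.eval₂_X_pow, Polynomial.eval₂_one, div_pow, hpow,
        div_self (pow_ne_zero _ hb), sub_self]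
    obtain ⟨z, hz⟩ := minpoly.mem_range_of_degree_eq_one K (P a / P b)
      (IsAlgClosed.degree_eq_one_of_irreducible K (minpoly.irreducible hr))
    refine ⟨z, fun n => ?_⟩
    have h1 : P a = algebraMap K (LaurentSeries K) z * P b := by
      rw [hz]; exact (div_mul_cancel₀ _ hb).symm
    have h2 := congrArg (fun x : LaurentSeries K => x.coeff (n : ℤ)) h1
    rw [ModularCurve.algebraMap_laurentSeries_eq_single] at h2
    simp only [HahnSeries.coeff_single_zero_mul, hcoeff] at h2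
    rw [← mul_assoc] at h2
    exact mul_right_cancel₀ (inv_ne_zero hM) h2

theorem eq_or_eq_of_uK_eq {a b : (ZMod M)ˣ} (hM : (M : K) ≠ 0) (h : uK K a = uK K b) :
    (b = a ∨ b = -a) ∨ (cU M * b = a ∨ cU M * b = -a) := by
  have hM' : (M : AlgebraicClosure K) ≠ 0 := by
    rw [← map_natCast (algebraMap K (AlgebraicClosure K))]
    exact (map_ne_zero _).mpr hM
  obtain ⟨z, hz⟩ := hNum_proportional hM' (a := a) (b := b)
    (by rw [← coeffMap_uK K (algebraMap K (AlgebraicClosure K)), h, coeffMap_uK])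
  obtain ⟨q, -, hq, hqa⟩ := Nat.forall_exists_prime_gt_and_eq_mod
    (q := M) (Units.isUnit (a⁻¹)) 0
  have h1 : ((hNum a q - hNum a 1 : ℤ) : AlgebraicClosure K)
      = z * ((hNum b q - hNum b 1 : ℤ) : AlgebraicClosure K) := by
    push_cast; rw [hz, hz]; ring
  rw [hNum_prime_sub a hq, hNum_prime_sub b hq, hqa] at h1
  have hne : ∀ u : (ZMod M)ˣ, u ≠ 1 → u ≠ -1 → sgAt (u : ZMod M) = 0 := fun u u1 u2 =>
    sgAt_eq_zero (fun e => u1 (Units.ext e)) (fun e => u2 (Units.ext (by simpa using e)))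
  have hca : sgAt ((cU M * a : ZMod M) * ((a⁻¹ : (ZMod M)ˣ) : ZMod M)) = 0 := by
    rw [mul_assoc, Units.mul_inv, mul_one]
    exact hne _ (cU_ne_one M) (cU_ne_neg_one M)
  by_contra hcon
  simp only [not_or] at hcon
  obtain ⟨⟨hb1, hb2⟩, hb3, hb4⟩ := hcon
  have hmove : ∀ x : (ZMod M)ˣ, x ≠ a → x ≠ -a →
      sgAt ((x : ZMod M) * ((a⁻¹ : (ZMod M)ˣ) : ZMod M)) = 0 := by
    intro x x1 x2
    rw [← Units.val_mul]
    refine hne _ (fun e => x1 (mul_inv_eq_one.mp e)) (fun e => x2 ?_)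
    calc x = x * a⁻¹ * a := by group
      _ = -a := by rw [e, neg_one_mul]
  rw [Units.mul_inv, sgAt_one, hca, hmove b hb1 hb2, ← Units.val_mul (cU M) b,
    hmove (cU M * b) hb3 hb4] at h1
  simp [hM'] at h1

/-- The translates are distinct in every characteristic prime to `M`. -/
theorem uK_eq_iff {a b : (ZMod M)ˣ} (hM : (M : K) ≠ 0) (h : uK K a = uK K b) :
    b = a ∨ b = -a := by
  rcases eq_or_eq_of_uK_eq hM h with h1 | h1
  · exact h1
  rcases eq_or_eq_of_uK_eq hM h.symm with h2 | h2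
  · rcases h2 with h2 | h2
    · exact Or.inl h2.symm
    · exact Or.inr (by rw [h2, neg_neg])
  exfalso
  have hsq : cU M ^ 2 * b = b ∨ cU M ^ 2 * b = -b := by
    rcases h1 with h1 | h1 <;> rcases h2 with h2 | h2 <;> rw [sq, mul_assoc, h1]
    · exact Or.inl h2
    · exact Or.inr h2
    · exact Or.inr (by rw [mul_neg, h2])
    · exact Or.inl (by rw [mul_neg, h2, neg_neg])
  rcases hsq with h3 | h3
  · exact cU_sq_ne_one M (mul_right_cancel (h3.trans (one_mul b).symm))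
  · exact cU_sq_ne_neg_one M (mul_right_cancel (h3.trans (neg_one_mul b).symm))

end Series

end Fermat.Agent.DeligneSerre.Curve
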